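import Mathlib

/-!
# S56 (a6.1): a complete local `𝒪`-algebra is a quotient of `𝒪⟦X₁,…,X_r⟧` when `r` elements
generate its maximal ideal modulo `𝔪_𝒪 R + 𝔪_R ^ 2`

`𝒪` a local ring, complete for its maximal ideal; `R` a local `𝒪`-algebra, complete for its
maximal ideal, with `𝒪 → R / 𝔪_R` onto and `𝒪 → R` local.  If `x : Fin r → 𝔪_R` satisfies
`𝔪_R ≤ 𝔪_𝒪 R + (x) + 𝔪_R ^ 2`, then the evaluation `𝒪⟦X⟧ → R`, `X i ↦ x i`, is onto.
-/

set_option autoImplicit false
set_option linter.style.haveILetI false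

noncomputable section

namespace Fermat.Agent.S56.Tan.PowerSeriesSurj

open IsLocalRing MvPowerSeries Filter Topology

variable {𝒪 R : Type*} [CommRing 𝒪] [CommRing R] [Algebra 𝒪 R]

/-! ### polynomials of weight `≥ n` -/

/-- `g` has weight `≥ n` for the ideal `I` of the coefficient ring: the coefficient of `X ^ m`
lies in `I ^ (n - |m|)`. -/
def Wt (I : Ideal 𝒪) {r : ℕ} (n : ℕ) (g : MvPolynomial (Fin r) 𝒪) : Prop :=
  ∀ m : Fin r →₀ ℕ, MvPolynomial.coeff m g ∈ I ^ (n - m.degree)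

variable {I : Ideal 𝒪} {r : ℕ}

theorem Wt.zero (n : ℕ) : Wt I n (0 : MvPolynomial (Fin r) 𝒪) := fun m => by
  rw [MvPolynomial.coeff_zero]; exact Ideal.zero_mem _

theorem Wt.add {n : ℕ} {g h : MvPolynomial (Fin r) 𝒪} (hg : Wt I n g) (hh : Wt I n h) :
    Wt I n (g + h) := fun m => by
  rw [MvPolynomial.coeff_add]; exact Ideal.add_mem _ (hg m) (hh m)

theorem Wt.sum {ι : Type*} (s : Finset ι) {n : ℕ} {g : ι → MvPolynomial (Fin r) 𝒪}
    (hg : ∀ i ∈ s, Wt I n (g i)) : Wt I n (∑ i ∈ s, g i) := by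
  classical
  induction s using Finset.induction_on with
  | empty => simpa using Wt.zero n
  | insert a s ha ih =>
    rw [Finset.sum_insert ha]
    exact (hg a (Finset.mem_insert_self a s)).add
      (ih fun i hi => hg i (Finset.mem_insert_of_mem hi))

theorem Wt.C_zero (c : 𝒪) : Wt I 0 (MvPolynomial.C c : MvPolynomial (Fin r) 𝒪) := fun m => by
  rw [Nat.zero_sub, pow_zero, Ideal.one_eq_top]; trivial

theorem Wt.C_mul {n : ℕ} {c : 𝒪} (hc : c ∈ I) {g : MvPolynomial (Fin r) 𝒪} (hg : Wt I n g) :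
    Wt I (n + 1) (MvPolynomial.C c * g) := fun m => by
  rw [MvPolynomial.coeff_C_mul]
  by_cases h : m.degree ≤ n
  · have : n + 1 - m.degree = (n - m.degree) + 1 := by omega
    rw [this, pow_succ']
    exact Ideal.mul_mem_mul hc (hg m)
  · have : n + 1 - m.degree = 0 := by omega
    rw [this, pow_zero, Ideal.one_eq_top]; trivial

theorem Wt.X_mul {n : ℕ} (i : Fin r) {g : MvPolynomial (Fin r) 𝒪} (hg : Wt I n g) :
    Wt I (n + 1) (MvPolynomial.X i * g) := fun m => by
  classical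
  rw [MvPolynomial.coeff_X_mul']
  split_ifs with h
  · have hdeg : m.degree = (m - Finsupp.single i 1).degree + 1 := by
      have h1 : m = (m - Finsupp.single i 1) + Finsupp.single i 1 := by
        ext j
        by_cases hj : j = i
        · subst hj
          have : 1 ≤ m j := Nat.one_le_iff_ne_zero.mpr (Finsupp.mem_support_iff.mp h)
          simp; omega
        · simp [Ne.symm hj]
      conv_lhs => rw [h1]
      rw [map_add, Finsupp.degree_single]
    have := hg (m - Finsupp.single i 1)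
    have h2 : n + 1 - m.degree = n - (m - Finsupp.single i 1).degree := by omega
    rw [h2]; exact this
  · exact Ideal.zero_mem _

/-! ### the approximation step -/

section Approx

variable (I) (𝔪 : Ideal R) (x : Fin r → R)

/-- the property propagated by the induction: `z ≡ g(x)` modulo `𝔪 ^ (n + 1)` with `g` of
weight `≥ n` -/
def Approx (n : ℕ) (z : R) : Prop :=
  ∃ g : MvPolynomial (Fin r) 𝒪, Wt I n g ∧ z - MvPolynomial.aeval x g ∈ 𝔪 ^ (n + 1)

variable {I 𝔪 x}

theorem Approx.zero (n : ℕ) : Approx I 𝔪 x n 0 :=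
  ⟨0, Wt.zero n, by simp⟩

theorem Approx.add {n : ℕ} {z z' : R} (h : Approx I 𝔪 x n z) (h' : Approx I 𝔪 x n z') :
    Approx I 𝔪 x n (z + z') := by
  obtain ⟨g, hg, hz⟩ := h
  obtain ⟨g', hg', hz'⟩ := h'
  refine ⟨g + g', hg.add hg', ?_⟩
  have : z + z' - MvPolynomial.aeval x (g + g')
      = (z - MvPolynomial.aeval x g) + (z' - MvPolynomial.aeval x g') := by
    rw [map_add]; ring
  rw [this]
  exact Ideal.add_mem _ hz hz'

theorem approx_of_mem_pow (hI : I.map (algebraMap 𝒪 R) ≤ 𝔪) (hx : ∀ i, x i ∈ 𝔪)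
    (hres : ∀ a : R, ∃ c : 𝒪, a - algebraMap 𝒪 R c ∈ 𝔪)
    (hgen : 𝔪 ≤ I.map (algebraMap 𝒪 R) ⊔ Ideal.span (Set.range x) ⊔ 𝔪 ^ 2) :
    ∀ (n : ℕ) (z : R), z ∈ 𝔪 ^ n → Approx I 𝔪 x n z := by
  intro n
  induction n with
  | zero =>
    intro z _
    obtain ⟨c, hc⟩ := hres z
    refine ⟨MvPolynomial.C c, Wt.C_zero c, ?_⟩
    rw [MvPolynomial.aeval_C]
    simpa using hc
  | succ n ih =>
    -- the property of `v ∈ 𝔪`: for all `u ∈ 𝔪 ^ n`, `u * v` is approximated at level `n + 1`
    have key : ∀ v ∈ 𝔪, ∀ u ∈ 𝔪 ^ n, Approx I 𝔪 x (n + 1) (u * v) := by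
      -- members of `I R`
      have h1 : ∀ v ∈ I.map (algebraMap 𝒪 R), ∀ u ∈ 𝔪 ^ n, Approx I 𝔪 x (n + 1) (u * v) := by
        intro v hv
        refine Submodule.span_induction (p := fun v _ => ∀ u ∈ 𝔪 ^ n,
          Approx I 𝔪 x (n + 1) (u * v)) ?_ ?_ ?_ ?_ hv
        · rintro _ ⟨c, hc, rfl⟩ u hu
          obtain ⟨g, hg, hz⟩ := ih u hu
          refine ⟨MvPolynomial.C c * g, hg.C_mul hc, ?_⟩
          have : u * algebraMap 𝒪 R c - MvPolynomial.aeval x (MvPolynomial.C c * g)
              = algebraMap 𝒪 R c * (u - MvPolynomial.aeval x g) := by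
            rw [map_mul, MvPolynomial.aeval_C]; ring
          rw [this, pow_succ']
          exact Ideal.mul_mem_mul (hI (Ideal.mem_map_of_mem _ hc)) hz
        · intro u _
          rw [mul_zero]; exact Approx.zero _
        · intro a b _ _ ha hb u hu
          rw [mul_add]; exact (ha u hu).add (hb u hu)
        · intro a b _ hb u hu
          have : u * (a • b) = (u * a) * b := by rw [smul_eq_mul]; ring
          rw [this]
          exact hb (u * a) (Ideal.mul_mem_right _ _ hu)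
      -- members of `(x)`
      have h2 : ∀ v ∈ Ideal.span (Set.range x), ∀ u ∈ 𝔪 ^ n, Approx I 𝔪 x (n + 1) (u * v) := by
        intro v hv
        refine Submodule.span_induction (p := fun v _ => ∀ u ∈ 𝔪 ^ n,
          Approx I 𝔪 x (n + 1) (u * v)) ?_ ?_ ?_ ?_ hv
        · rintro _ ⟨i, rfl⟩ u hu
          obtain ⟨g, hg, hz⟩ := ih u hu
          refine ⟨MvPolynomial.X i * g, hg.X_mul i, ?_⟩
          have : u * x i - MvPolynomial.aeval x (MvPolynomial.X i * g)
              = x i * (u - MvPolynomial.aeval x g) := by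
            rw [map_mul, MvPolynomial.aeval_X]; ring
          rw [this, pow_succ']
          exact Ideal.mul_mem_mul (hx i) hz
        · intro u _
          rw [mul_zero]; exact Approx.zero _
        · intro a b _ _ ha hb u hu
          rw [mul_add]; exact (ha u hu).add (hb u hu)
        · intro a b _ hb u hu
          have : u * (a • b) = (u * a) * b := by rw [smul_eq_mul]; ring
          rw [this]
          exact hb (u * a) (Ideal.mul_mem_right _ _ hu)
      -- members of `𝔪 ^ 2`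
      have h3 : ∀ v ∈ 𝔪 ^ 2, ∀ u ∈ 𝔪 ^ n, Approx I 𝔪 x (n + 1) (u * v) := by
        intro v hv u hu
        refine ⟨0, Wt.zero _, ?_⟩
        rw [map_zero, sub_zero]
        have : 𝔪 ^ (n + 1 + 1) = 𝔪 ^ n * 𝔪 ^ 2 := by rw [← pow_add]
        rw [this]
        exact Ideal.mul_mem_mul hu hv
      intro v hv u hu
      obtain ⟨v12, hv12, v3, hv3, rfl⟩ := Submodule.mem_sup.mp (hgen hv)
      obtain ⟨v1, hv1, v2, hv2, rfl⟩ := Submodule.mem_sup.mp hv12
      rw [mul_add, mul_add]
      exact ((h1 v1 hv1 u hu).add (h2 v2 hv2 u hu)).add (h3 v3 hv3 u hu)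
    intro z hz
    rw [pow_succ] at hz
    refine Submodule.mul_induction_on hz ?_ ?_
    · intro u hu v hv
      exact key v hv u hu
    · intro a b ha hb
      exact ha.add hb

end Approx

/-! ### the evaluation map and its surjectivity -/

section Main

variable [IsLocalRing 𝒪] [IsLocalRing R]

open MvPowerSeries.WithPiTopology in
/-- **(T1)** a complete local `𝒪`-algebra whose maximal ideal is generated by `x₁, …, x_r` modulo
`𝔪_𝒪 R + 𝔪_R ^ 2` is a quotient of `𝒪⟦X₁,…,X_r⟧` (`𝒪` complete). -/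
theorem exists_surjective [IsAdicComplete (maximalIdeal 𝒪) 𝒪] [IsAdicComplete (maximalIdeal R) R]
    [IsLocalHom (algebraMap 𝒪 R)]
    (hres : Function.Surjective (residue R ∘ algebraMap 𝒪 R))
    (x : Fin r → R) (hx : ∀ i, x i ∈ maximalIdeal R)
    (hgen : maximalIdeal R ≤ (maximalIdeal 𝒪).map (algebraMap 𝒪 R) ⊔ Ideal.span (Set.range x)
      ⊔ maximalIdeal R ^ 2) :
    ∃ γ : MvPowerSeries (Fin r) 𝒪 →ₐ[𝒪] R, Function.Surjective γ ∧
      ∀ i, γ (MvPowerSeries.X i) = x i := by
  classical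
  letI : WithIdeal 𝒪 := ⟨maximalIdeal 𝒪⟩
  letI : WithIdeal R := ⟨maximalIdeal R⟩
  have hmap : (maximalIdeal 𝒪).map (algebraMap 𝒪 R) ≤ maximalIdeal R := by
    rw [Ideal.map_le_iff_le_comap]
    intro o ho
    exact (mem_maximalIdeal _).mpr (map_nonunit (algebraMap 𝒪 R) o ho)
  have hcont : Continuous (algebraMap 𝒪 R) :=
    (WithIdeal.uniformContinuous_of_map_le (f := algebraMap 𝒪 R) hmap).continuous
  haveI : ContinuousSMul 𝒪 R := continuousSMul_of_algebraMap 𝒪 R hcont
  obtain ⟨hcR, ht2R⟩ :=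
    (IsAdic.isAdicComplete_iff (R := R) (I := maximalIdeal R) rfl).mp inferInstance
  obtain ⟨hc𝒪, ht2𝒪⟩ :=
    (IsAdic.isAdicComplete_iff (R := 𝒪) (I := maximalIdeal 𝒪) rfl).mp inferInstance
  have ha : MvPowerSeries.HasEval x :=
    ⟨fun i => WithIdeal.isTopologicallyNilpotent_of_mem (hx i), by simp⟩
  refine ⟨MvPowerSeries.aeval ha, ?_, fun i => ?_⟩
  swap
  · rw [← MvPolynomial.coe_X, MvPowerSeries.aeval_coe, MvPolynomial.aeval_X]
  have hres' : ∀ a : R, ∃ c : 𝒪, a - algebraMap 𝒪 R c ∈ maximalIdeal R := by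
    intro a
    obtain ⟨c, hc⟩ := hres (residue R a)
    refine ⟨c, ?_⟩
    rw [← Ideal.Quotient.eq_zero_iff_mem, map_sub]
    have : residue R (algebraMap 𝒪 R c) = residue R a := hc
    exact sub_eq_zero.mpr this.symm
  have happ := approx_of_mem_pow (I := maximalIdeal 𝒪) (𝔪 := maximalIdeal R) (x := x) hmap hx
    hres' hgen
  choose G hGW hGz using happ
  intro y
  -- the remainders `Z n ∈ 𝔪 ^ n` and the corrections `g n` of weight `≥ n`
  let Z : ∀ n : ℕ, {z : R // z ∈ maximalIdeal R ^ n} := fun n =>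
    Nat.rec (motive := fun n => {z : R // z ∈ maximalIdeal R ^ n}) ⟨y, by simp⟩
      (fun n z => ⟨z.1 - MvPolynomial.aeval x (G n z.1 z.2), hGz n z.1 z.2⟩) n
  let g : ℕ → MvPolynomial (Fin r) 𝒪 := fun n => G n (Z n).1 (Z n).2
  have hZsucc : ∀ n, (Z (n + 1)).1 = (Z n).1 - MvPolynomial.aeval x (g n) := fun n => rfl
  have hZsum : ∀ n, y - ∑ i ∈ Finset.range n, MvPolynomial.aeval x (g i) = (Z n).1 := by
    intro n
    induction n with
    | zero => simp [Z]
    | succ n ih => rw [Finset.sum_range_succ, hZsucc, ← ih]; ring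
  have hgW : ∀ n, Wt (maximalIdeal 𝒪) n (g n) := fun n => hGW n _ _
  -- the series of the `g n` converges in `𝒪⟦X⟧`
  have hsum : Summable fun n => (g n : MvPowerSeries (Fin r) 𝒪) := by
    rw [MvPowerSeries.WithPiTopology.summable_iff_summable_coeff]
    intro d
    refine NonarchimedeanAddGroup.summable_of_tendsto_cofinite_zero ?_
    rw [Nat.cofinite_eq_atTop,
      (Ideal.hasBasis_nhds_zero_adic (maximalIdeal 𝒪)).tendsto_right_iff]
    intro N _
    filter_upwards [Filter.eventually_ge_atTop (N + d.degree)] with n hn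
    have h1 := hgW n d
    rw [MvPolynomial.coeff_coe]
    exact Ideal.pow_le_pow_right (by omega) h1
  have hγc : Continuous (MvPowerSeries.aeval ha : MvPowerSeries (Fin r) 𝒪 →ₐ[𝒪] R) :=
    MvPowerSeries.continuous_aeval ha
  refine ⟨∑' n, (g n : MvPowerSeries (Fin r) 𝒪), ?_⟩
  have h1 : HasSum (fun n => MvPolynomial.aeval x (g n))
      (MvPowerSeries.aeval ha (∑' n, (g n : MvPowerSeries (Fin r) 𝒪))) := by
    have h := hsum.hasSum.map (MvPowerSeries.aeval ha : MvPowerSeries (Fin r) 𝒪 →ₐ[𝒪] R) hγc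
    have he : ((MvPowerSeries.aeval ha : MvPowerSeries (Fin r) 𝒪 →ₐ[𝒪] R) ∘
        fun n => (g n : MvPowerSeries (Fin r) 𝒪)) = fun n => MvPolynomial.aeval x (g n) := by
      funext n
      exact MvPowerSeries.aeval_coe ha (g n)
    rwa [he] at h
  have h2 := h1.tendsto_sum_nat
  have h3 : Filter.Tendsto (fun n => ∑ i ∈ Finset.range n, MvPolynomial.aeval x (g i))
      Filter.atTop (𝓝 y) := by
    rw [← tendsto_sub_nhds_zero_iff,
      (Ideal.hasBasis_nhds_zero_adic (maximalIdeal R)).tendsto_right_iff]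
    intro N _
    filter_upwards [Filter.eventually_ge_atTop N] with n hn
    have h4 : ∑ i ∈ Finset.range n, MvPolynomial.aeval x (g i) - y = -(Z n).1 := by
      rw [← hZsum n]; ring
    rw [h4]
    exact (Ideal.neg_mem_iff _).mpr (Ideal.pow_le_pow_right hn (Z n).2)
  exact tendsto_nhds_unique h2 h3

end Main

end Fermat.Agent.S56.Tan.PowerSeriesSurj
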