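import Mathlib
import Fermat.Agent.S53.TangentBound
import Fermat.Agent.S53.GoodTower
import Fermat.Agent.S56.Tan.PowerSeriesSurj

/-!
# S56 (a6.2): from the number of `𝒪`-algebra maps `R → k[ε]` to generators of `𝔪_R`

`R` a local `𝒪`-algebra with `𝒪 → R / 𝔪_R` onto, `k = 𝒪 / 𝔪_𝒪` finite.  The `𝒪`-algebra maps
`R → k[ε]` are the maps `a ↦ res a + ε ℓ a`, `ℓ` in the `k`-space `Lam` of `𝒪`-derivations
`R → k`.  If there are at most `(#k) ^ r` of them, `𝔪_R` is generated by `r` elements modulo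
`𝔪_𝒪 R + 𝔪_R ^ 2`, hence (T1) `R` is a quotient of `𝒪⟦X₁,…,X_r⟧` when `𝒪` and `R` are complete.
-/

set_option autoImplicit false
set_option linter.unusedSectionVars false
set_option linter.style.haveILetI false

noncomputable section

namespace Fermat.Agent.S56.Tan.DualHom

open IsLocalRing Fermat.Agent.S53.TangentBound Fermat.Agent.S53.GoodTower

variable {𝒪 R : Type} [CommRing 𝒪] [IsLocalRing 𝒪] [CommRing R] [IsLocalRing R] [Algebra 𝒪 R]
  [IsLocalHom (algebraMap 𝒪 R)]

attribute [local instance] algDual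

variable (hres : Function.Surjective (residue R ∘ algebraMap 𝒪 R))

/-! ### the residue map to `k = 𝒪 / 𝔪_𝒪` -/

/-- the residue map `R → k`, `k` the residue field of `𝒪` -/
def resk : R →+* ResidueField 𝒪 :=
  ((RingEquiv.ofBijective (ResidueField.map (algebraMap 𝒪 R))
    (residueField_map_bijective hres)).symm : ResidueField R →+* ResidueField 𝒪).comp (residue R)

theorem resk_algebraMap (o : 𝒪) : resk hres (algebraMap 𝒪 R o) = residue 𝒪 o := by
  unfold resk
  rw [RingHom.comp_apply, RingHom.coe_coe, RingEquiv.symm_apply_eq]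
  rfl

theorem resk_eq_zero_iff (a : R) : resk hres a = 0 ↔ a ∈ maximalIdeal R := by
  unfold resk
  rw [RingHom.comp_apply, RingHom.coe_coe, map_eq_zero_iff _ (RingEquiv.injective _),
    residue_eq_zero_iff]

include hres in
theorem exists_sub_mem (a : R) : ∃ c : 𝒪, a - algebraMap 𝒪 R c ∈ maximalIdeal R := by
  obtain ⟨c, hc⟩ := hres (residue R a)
  refine ⟨c, ?_⟩
  rw [← Ideal.Quotient.eq_zero_iff_mem, map_sub]
  have : residue R (algebraMap 𝒪 R c) = residue R a := hc
  exact sub_eq_zero.mpr this.symm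

theorem resk_surjective : Function.Surjective (resk hres) := by
  intro t
  obtain ⟨o, rfl⟩ := residue_surjective t
  exact ⟨algebraMap 𝒪 R o, resk_algebraMap hres o⟩

/-! ### the space of derivations -/

/-- the `k`-space of `𝒪`-derivations `R → k` (as functions) -/
def Lam : Submodule (ResidueField 𝒪) (R → ResidueField 𝒪) where
  carrier := {ℓ | (∀ a b, ℓ (a + b) = ℓ a + ℓ b) ∧
    (∀ a b, ℓ (a * b) = resk hres a * ℓ b + resk hres b * ℓ a) ∧
    ∀ o : 𝒪, ℓ (algebraMap 𝒪 R o) = 0}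
  add_mem' := by
    rintro ℓ ℓ' ⟨h1, h2, h3⟩ ⟨h1', h2', h3'⟩
    refine ⟨fun a b => ?_, fun a b => ?_, fun o => ?_⟩
    · simp only [Pi.add_apply, h1, h1']; ring
    · simp only [Pi.add_apply, h2, h2']; ring
    · simp only [Pi.add_apply, h3, h3', add_zero]
  zero_mem' := ⟨fun _ _ => by simp, fun _ _ => by simp, fun _ => rfl⟩
  smul_mem' := by
    rintro c ℓ ⟨h1, h2, h3⟩
    refine ⟨fun a b => ?_, fun a b => ?_, fun o => ?_⟩
    · simp only [Pi.smul_apply, h1, smul_eq_mul]; ring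
    · simp only [Pi.smul_apply, h2, smul_eq_mul]; ring
    · simp only [Pi.smul_apply, h3, smul_zero]

theorem Lam.map_one {ℓ : R → ResidueField 𝒪} (hℓ : ℓ ∈ Lam hres) : ℓ 1 = 0 := by
  have := hℓ.2.2 (1 : 𝒪)
  rwa [_root_.map_one] at this

theorem Lam.map_zero {ℓ : R → ResidueField 𝒪} (hℓ : ℓ ∈ Lam hres) : ℓ 0 = 0 := by
  have := hℓ.2.2 (0 : 𝒪)
  rwa [_root_.map_zero] at this

/-- a derivation is `k`-semilinear on `𝔪_R` -/
theorem Lam.map_mul_of_mem {ℓ : R → ResidueField 𝒪} (hℓ : ℓ ∈ Lam hres) (a : R) {m : R}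
    (hm : m ∈ maximalIdeal R) : ℓ (a * m) = resk hres a * ℓ m := by
  rw [hℓ.2.1, (resk_eq_zero_iff hres m).mpr hm, zero_mul, add_zero]

/-- a derivation vanishing on `𝔪_R` is zero -/
theorem Lam.eq_zero_of_vanish {ℓ : R → ResidueField 𝒪} (hℓ : ℓ ∈ Lam hres)
    (h : ∀ m ∈ maximalIdeal R, ℓ m = 0) : ℓ = 0 := by
  funext a
  obtain ⟨c, hc⟩ := exists_sub_mem hres a
  have : a = (a - algebraMap 𝒪 R c) + algebraMap 𝒪 R c := by ring
  rw [this, hℓ.1, h _ hc, hℓ.2.2, add_zero]
  rfl

/-! ### derivations and algebra maps to the dual numbers -/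

/-- the algebra map `a ↦ res a + ε ℓ a` of a derivation -/
def toHom (ℓ : Lam hres) : R →ₐ[𝒪] DualNumber (ResidueField 𝒪) where
  toFun a := TrivSqZeroExt.inl (resk hres a) + TrivSqZeroExt.inr (ℓ.1 a)
  map_one' := by
    rw [Lam.map_one hres ℓ.2, _root_.map_one]
    apply TrivSqZeroExt.ext <;> simp
  map_mul' a b := by
    rw [ℓ.2.2.1 a b, _root_.map_mul]
    apply TrivSqZeroExt.ext
    · simp
    · simp [mul_comm]
  map_zero' := by
    rw [Lam.map_zero hres ℓ.2, _root_.map_zero]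
    apply TrivSqZeroExt.ext <;> simp
  map_add' a b := by
    rw [ℓ.2.1 a b, _root_.map_add]
    apply TrivSqZeroExt.ext <;> simp
  commutes' o := by
    rw [ℓ.2.2.2 o, resk_algebraMap]
    apply TrivSqZeroExt.ext
    · simp [fst_algebraMap]
    · simp [snd_algebraMap]

theorem snd_toHom (ℓ : Lam hres) (a : R) : TrivSqZeroExt.snd (toHom hres ℓ a) = ℓ.1 a := by
  show TrivSqZeroExt.snd (TrivSqZeroExt.inl (resk hres a) + TrivSqZeroExt.inr (ℓ.1 a)) = ℓ.1 a
  simp

theorem toHom_injective : Function.Injective (toHom hres) := by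
  intro ℓ ℓ' h
  apply Subtype.ext
  funext a
  rw [← snd_toHom hres ℓ a, ← snd_toHom hres ℓ' a, h]

/-- every `𝒪`-algebra map `R → k[ε]` kills `𝔪_R` modulo `ε` -/
theorem fst_algHom_of_mem (f : R →ₐ[𝒪] DualNumber (ResidueField 𝒪)) {m : R}
    (hm : m ∈ maximalIdeal R) : TrivSqZeroExt.fst (f m) = 0 := by
  by_contra ht
  obtain ⟨c, hc⟩ := residue_surjective (TrivSqZeroExt.fst (f m))⁻¹
  have hmem : algebraMap 𝒪 R c * m ∈ nonunits R := by
    have : algebraMap 𝒪 R c * m ∈ maximalIdeal R := Ideal.mul_mem_left _ _ hm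
    exact this
  have hu : IsUnit (1 - algebraMap 𝒪 R c * m) := isUnit_one_sub_self_of_mem_nonunits _ hmem
  have hu' : IsUnit (f (1 - algebraMap 𝒪 R c * m)) := hu.map f
  rw [TrivSqZeroExt.isUnit_iff_isUnit_fst] at hu'
  have h0 : TrivSqZeroExt.fst (f (1 - algebraMap 𝒪 R c * m)) = 0 := by
    rw [map_sub, _root_.map_one, _root_.map_mul, AlgHom.commutes, TrivSqZeroExt.fst_sub,
      TrivSqZeroExt.fst_mul, TrivSqZeroExt.fst_one, fst_algebraMap, hc, inv_mul_cancel₀ ht,
      sub_self]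
  rw [h0] at hu'
  exact not_isUnit_zero hu'

theorem fst_algHom (f : R →ₐ[𝒪] DualNumber (ResidueField 𝒪)) (a : R) :
    TrivSqZeroExt.fst (f a) = resk hres a := by
  obtain ⟨c, hc⟩ := exists_sub_mem hres a
  have : a = (a - algebraMap 𝒪 R c) + algebraMap 𝒪 R c := by ring
  rw [this, _root_.map_add, _root_.map_add, TrivSqZeroExt.fst_add, fst_algHom_of_mem f hc,
    (resk_eq_zero_iff hres _).mpr hc, AlgHom.commutes, fst_algebraMap, resk_algebraMap]

/-- the derivation of an algebra map -/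
theorem snd_comp_mem_Lam (f : R →ₐ[𝒪] DualNumber (ResidueField 𝒪)) :
    (fun a => TrivSqZeroExt.snd (f a)) ∈ Lam hres := by
  refine ⟨fun a b => ?_, fun a b => ?_, fun o => ?_⟩
  · beta_reduce
    rw [_root_.map_add, TrivSqZeroExt.snd_add]
  · beta_reduce
    rw [_root_.map_mul, TrivSqZeroExt.snd_mul, fst_algHom hres f a, fst_algHom hres f b]
    simp [mul_comm]
  · beta_reduce
    rw [AlgHom.commutes, snd_algebraMap]

/-- **separation**: an element of `𝔪_R` killed by all derivations lies in `𝔪_R ^ 2 + 𝔪_𝒪 R` -/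
theorem mem_cotIdeal_of_forall {x : R} (hx : x ∈ maximalIdeal R)
    (h : ∀ ℓ ∈ Lam hres, ℓ x = 0) : x ∈ cotIdeal 𝒪 R := by
  by_contra hxI
  obtain ⟨f, hf⟩ := exists_algHom_ne_zero (𝒪 := 𝒪) (A := R) hres (fun o => rfl) hx hxI
  apply hf
  apply TrivSqZeroExt.ext
  · rw [fst_algHom hres f x, (resk_eq_zero_iff hres x).mpr hx]; rfl
  · exact h _ (snd_comp_mem_Lam hres f)

/-! ### additivity helpers -/

/-- a derivation as an additive map -/
def Lam.toAddHom {ℓ : R → ResidueField 𝒪} (hℓ : ℓ ∈ Lam hres) : R →+ ResidueField 𝒪 where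
  toFun := ℓ
  map_zero' := Lam.map_zero hres hℓ
  map_add' := hℓ.1

theorem Lam.map_sub {ℓ : R → ResidueField 𝒪} (hℓ : ℓ ∈ Lam hres) (a b : R) :
    ℓ (a - b) = ℓ a - ℓ b :=
  (Lam.toAddHom hres hℓ).map_sub a b

theorem Lam.map_sum {ℓ : R → ResidueField 𝒪} (hℓ : ℓ ∈ Lam hres) {ι : Type*} (s : Finset ι)
    (f : ι → R) : ℓ (∑ i ∈ s, f i) = ∑ i ∈ s, ℓ (f i) :=
  _root_.map_sum (Lam.toAddHom hres hℓ) f s

/-! ### the count -/

section Count

variable [Finite (ResidueField 𝒪)]

include hres in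
/-- **(T2)** at most `(#k) ^ r` algebra maps to the dual numbers: `𝔪_R` is generated by `r`
elements modulo `𝔪_𝒪 R + 𝔪_R ^ 2`. -/
theorem exists_gens_of_card_le [Finite (R →ₐ[𝒪] DualNumber (ResidueField 𝒪))] {r : ℕ}
    (h : Nat.card (R →ₐ[𝒪] DualNumber (ResidueField 𝒪)) ≤ Nat.card (ResidueField 𝒪) ^ r) :
    ∃ x : Fin r → R, (∀ i, x i ∈ maximalIdeal R) ∧
      maximalIdeal R ≤ (maximalIdeal 𝒪).map (algebraMap 𝒪 R) ⊔ Ideal.span (Set.range x)
        ⊔ maximalIdeal R ^ 2 := by
  classical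
  haveI : Finite (Lam hres) := Finite.of_injective _ (toHom_injective hres)
  have hcard : Nat.card (Lam hres) ≤ Nat.card (ResidueField 𝒪) ^ r :=
    (Nat.card_le_card_of_injective _ (toHom_injective hres)).trans h
  haveI : Module.Finite (ResidueField 𝒪) (Lam hres) := Module.Finite.of_finite
  set d := Module.finrank (ResidueField 𝒪) (Lam hres) with hd
  have hdr : d ≤ r := by
    rw [Module.natCard_eq_pow_finrank (K := ResidueField 𝒪) (V := Lam hres)] at hcard
    exact (Nat.pow_le_pow_iff_right Finite.one_lt_card).mp hcard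
  let b := Module.finBasis (ResidueField 𝒪) (Lam hres)
  -- the evaluation `E : R → k ^ d`
  let E : R → (Fin d → ResidueField 𝒪) := fun a j => (b j).1 a
  have hEadd : ∀ a a', E (a + a') = E a + E a' := fun a a' => by
    funext j; exact (b j).2.1 a a'
  have hEmul : ∀ (a : R) {m : R}, m ∈ maximalIdeal R → E (a * m) = resk hres a • E m :=
    fun a m hm => by
      funext j; exact Lam.map_mul_of_mem hres (b j).2 a hm
  -- the image of `𝔪_R`
  let W : Submodule (ResidueField 𝒪) (Fin d → ResidueField 𝒪) :=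
    { carrier := {v | ∃ m ∈ maximalIdeal R, E m = v}
      add_mem' := by
        rintro _ _ ⟨m, hm, rfl⟩ ⟨m', hm', rfl⟩
        exact ⟨m + m', Ideal.add_mem _ hm hm', hEadd m m'⟩
      zero_mem' := ⟨0, Ideal.zero_mem _, by
        funext j; exact Lam.map_zero hres (b j).2⟩
      smul_mem' := by
        rintro t _ ⟨m, hm, rfl⟩
        obtain ⟨a, rfl⟩ := resk_surjective hres t
        exact ⟨a * m, Ideal.mul_mem_left _ _ hm, hEmul a hm⟩ }
  have hW : W = ⊤ := by
    by_contra hne
    obtain ⟨f, hf0, hfW⟩ := Submodule.exists_le_ker_of_lt_top W (lt_top_iff_ne_top.mpr hne)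
    set c : Fin d → ResidueField 𝒪 := fun i => f fun j => if i = j then 1 else 0 with hc
    have hfx : ∀ v : Fin d → ResidueField 𝒪, f v = ∑ i, v i * c i := fun v => by
      rw [LinearMap.pi_apply_eq_sum_univ f v]; rfl
    -- the derivation `∑ c j • b j` vanishes on `𝔪_R`
    have hvan : ∀ m ∈ maximalIdeal R, (∑ j, c j • b j : Lam hres).1 m = 0 := by
      intro m hm
      have h1 : f (E m) = 0 := hfW ⟨m, hm, rfl⟩
      rw [hfx] at h1
      rw [Submodule.coe_sum, Finset.sum_apply]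
      rw [← h1]
      refine Finset.sum_congr rfl fun j _ => ?_
      rw [Submodule.coe_smul, Pi.smul_apply, smul_eq_mul, mul_comm]
    have hzero : (∑ j, c j • b j : Lam hres) = 0 := by
      apply Subtype.ext
      exact Lam.eq_zero_of_vanish hres (∑ j, c j • b j : Lam hres).2 hvan
    have hc0 : ∀ j, c j = 0 := Fintype.linearIndependent_iff.mp b.linearIndependent c hzero
    apply hf0
    apply LinearMap.ext
    intro v
    rw [hfx, LinearMap.zero_apply]
    exact Finset.sum_eq_zero fun i _ => by rw [hc0 i, mul_zero]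
  -- preimages of the unit vectors
  have hex : ∀ j : Fin d, ∃ m ∈ maximalIdeal R, E m = Pi.single j 1 := by
    intro j
    have : (Pi.single j 1 : Fin d → ResidueField 𝒪) ∈ W := by rw [hW]; trivial
    exact this
  choose x hxm hxE using hex
  -- they generate `𝔪_R` modulo the cotangent ideal
  have hgen : maximalIdeal R ≤ Ideal.span (Set.range x) ⊔ cotIdeal 𝒪 R := by
    intro m hm
    have hlift : ∀ j : Fin d, ∃ a : R, resk hres a = E m j := fun j => resk_surjective hres _
    choose a ha using hlift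
    have hy : m - ∑ j, a j * x j ∈ cotIdeal 𝒪 R := by
      have hymem : m - ∑ j, a j * x j ∈ maximalIdeal R :=
        Ideal.sub_mem _ hm (Ideal.sum_mem _ fun j _ => Ideal.mul_mem_left _ _ (hxm j))
      refine mem_cotIdeal_of_forall hres hymem fun ℓ hℓ => ?_
      -- enough on the basis
      have hb : ∀ i, (b i).1 (m - ∑ j, a j * x j) = 0 := by
        intro i
        rw [Lam.map_sub hres (b i).2, Lam.map_sum hres (b i).2]
        have h2 : ∀ j, (b i).1 (a j * x j) = E m j * (Pi.single j 1 : Fin d → ResidueField 𝒪) i := by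
          intro j
          rw [Lam.map_mul_of_mem hres (b i).2 (a j) (hxm j), ha j]
          congr 1
          exact congrFun (hxE j) i
        rw [Finset.sum_congr rfl fun j _ => h2 j]
        have h3 : ∑ j, E m j * (Pi.single j 1 : Fin d → ResidueField 𝒪) i = E m i := by
          rw [Finset.sum_eq_single i]
          · rw [Pi.single_eq_same, mul_one]
          · intro j _ hji
            rw [Pi.single_eq_of_ne (Ne.symm hji), mul_zero]
          · intro hi
            exact absurd (Finset.mem_univ i) hi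
        rw [h3]
        exact sub_self _
      have hrepr : (⟨ℓ, hℓ⟩ : Lam hres) = ∑ i, b.repr ⟨ℓ, hℓ⟩ i • b i := (b.sum_repr _).symm
      have h4 : ℓ = (∑ i, b.repr ⟨ℓ, hℓ⟩ i • b i : Lam hres).1 := congrArg Subtype.val hrepr
      rw [h4, Submodule.coe_sum, Finset.sum_apply]
      refine Finset.sum_eq_zero fun i _ => ?_
      rw [Submodule.coe_smul, Pi.smul_apply, hb i, smul_zero]
    have hm' : m = ∑ j, a j * x j + (m - ∑ j, a j * x j) := by ring
    rw [hm']
    refine Ideal.add_mem _ (Ideal.mem_sup_left ?_) (Ideal.mem_sup_right hy)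
    exact Ideal.sum_mem _ fun j _ => Ideal.mul_mem_left _ _ (Ideal.subset_span ⟨j, rfl⟩)
  -- padding to `r` elements
  refine ⟨fun i => if hi : (i : ℕ) < d then x ⟨i, hi⟩ else 0, fun i => ?_, ?_⟩
  · beta_reduce
    by_cases hi : (i : ℕ) < d
    · rw [dif_pos hi]; exact hxm _
    · rw [dif_neg hi]; exact Ideal.zero_mem _
  · have hsub : Ideal.span (Set.range x) ≤
        Ideal.span (Set.range fun i : Fin r => if hi : (i : ℕ) < d then x ⟨i, hi⟩ else 0) := by
      refine Ideal.span_mono ?_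
      rintro _ ⟨j, rfl⟩
      refine ⟨⟨j, lt_of_lt_of_le j.2 hdr⟩, ?_⟩
      simp
    refine hgen.trans (sup_le (hsub.trans (le_sup_right.trans le_sup_left)) ?_)
    unfold cotIdeal
    exact sup_le le_sup_right (le_sup_left.trans le_sup_left)

include hres in
/-- **(T1) + (T2)** a complete local `𝒪`-algebra with at most `(#k) ^ r` algebra maps to the dual
numbers is a quotient of `𝒪⟦X₁,…,X_r⟧`. -/
theorem exists_surjective_of_card_le [IsAdicComplete (maximalIdeal 𝒪) 𝒪]
    [IsAdicComplete (maximalIdeal R) R]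
    [Finite (R →ₐ[𝒪] DualNumber (ResidueField 𝒪))] {r : ℕ}
    (h : Nat.card (R →ₐ[𝒪] DualNumber (ResidueField 𝒪)) ≤ Nat.card (ResidueField 𝒪) ^ r) :
    ∃ γ : MvPowerSeries (Fin r) 𝒪 →ₐ[𝒪] R, Function.Surjective γ := by
  obtain ⟨x, hx, hgen⟩ := exists_gens_of_card_le hres h
  obtain ⟨γ, hγ, -⟩ := PowerSeriesSurj.exists_surjective hres x hx hgen
  exact ⟨γ, hγ⟩

end Count

end Fermat.Agent.S56.Tan.DualHom
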