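import Mathlib
import Fermat.Agent.S56.Tan.DualHom

/-!
# S56 (a6), step (T3): the uniqueness clause of `DeformationRingData.universal` at `k[ε]`

For `DQ : DeformationRingData 𝒪 ρbar 𝒟` and an `𝒪`-algebra map `φ : DQ.R → k[ε]` put
`liftOf φ := DQ.ρ` pushed forward along `φ`.  If `liftOf ψ` is of type `𝒟` and
`liftOf φ ≃ liftOf ψ` then `φ = ψ`.  A map `φ` which is not onto is the zero tangent vector
`φ₀ = (k → k[ε]) ∘ residue`.  Consequently `#Hom_𝒪(R, k[ε]) ≤ #X` for every finite set `X`
receiving the surjective `φ`'s by a map which detects equivalence of the `liftOf φ`; the type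
`𝒟` is only ever needed for `liftOf φ` with `φ` ONTO.
-/

set_option autoImplicit false
set_option linter.unusedSectionVars false
set_option linter.style.haveILetI false

noncomputable section

namespace Fermat.Agent.S56.Tan.Universal

open IsLocalRing Fermat.Agent.S53.TangentBound Fermat.Agent.S53.Dictionary
  Fermat.Agent.S56.Tan.DualHom

/-! ### ideals with a vanishing power -/

section Nilp

variable {A : Type*} [CommRing A] (I : Ideal A)

theorem isAdicComplete_of_pow_eq_bot {n : ℕ} (hn : I ^ n = ⊥) : IsAdicComplete I A := by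
  have hbot : ∀ m, n ≤ m → (I ^ m • ⊤ : Submodule A A) = ⊥ := by
    intro m hm
    have : I ^ m ≤ I ^ n := Ideal.pow_le_pow_right hm
    rw [hn, le_bot_iff] at this
    rw [this, Submodule.bot_smul]
  refine { toIsHausdorff := ⟨fun x hx => ?_⟩, toIsPrecomplete := ⟨fun f hf => ?_⟩ }
  · have := hx n
    rw [hbot n le_rfl, SModEq.bot] at this
    exact this
  · refine ⟨f n, fun m => ?_⟩
    rcases le_total m n with h | h
    · exact hf h
    · have := hf h
      rw [hbot n le_rfl, SModEq.bot] at this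
      rw [this]

end Nilp

/-! ### the dual numbers as a test ring -/

section Dual

variable (k : Type) [Field k]

theorem maximalIdeal_dual_sq : maximalIdeal (DualNumber k) ^ 2 = ⊥ := by
  rw [eq_bot_iff, pow_two, Ideal.mul_le]
  intro x hx y hy
  rw [mem_maximalIdeal_iff] at hx hy
  rw [Ideal.mem_bot]
  apply TrivSqZeroExt.ext
  · simp [hx]
  · simp [hx, hy]

instance isAdicComplete_dual : IsAdicComplete (maximalIdeal (DualNumber k)) (DualNumber k) :=
  isAdicComplete_of_pow_eq_bot _ (maximalIdeal_dual_sq k)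

instance isNoetherianRing_dual : IsNoetherianRing (DualNumber k) :=
  haveI := isArtinianRing_dualNumber k
  inferInstance

end Dual

/-! ### algebra maps to the dual numbers -/

section Hom

variable {𝒪 R : Type} [CommRing 𝒪] [IsLocalRing 𝒪] [CommRing R] [IsLocalRing R] [Algebra 𝒪 R]
  [IsLocalHom (algebraMap 𝒪 R)]

attribute [local instance] algDual

variable (hres : Function.Surjective (residue R ∘ algebraMap 𝒪 R))

include hres in
/-- every `𝒪`-algebra map `R → k[ε]` is local -/
theorem isLocalHom_algHom (φ : R →ₐ[𝒪] DualNumber (ResidueField 𝒪)) :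
    IsLocalHom (φ : R →+* DualNumber (ResidueField 𝒪)) := by
  constructor
  intro a ha
  rw [RingHom.coe_coe, TrivSqZeroExt.isUnit_iff_isUnit_fst, fst_algHom hres φ a] at ha
  by_contra hna
  have : a ∈ maximalIdeal R := (mem_maximalIdeal a).2 hna
  rw [(resk_eq_zero_iff hres a).2 this] at ha
  exact not_isUnit_zero ha

/-- the zero tangent vector -/
def zeroHom : R →ₐ[𝒪] DualNumber (ResidueField 𝒪) := toHom hres 0

theorem zeroHom_apply (a : R) : zeroHom hres a = TrivSqZeroExt.inl (resk hres a) := by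
  show TrivSqZeroExt.inl (resk hres a) + TrivSqZeroExt.inr ((0 : Lam hres).1 a) = _
  simp

theorem algHom_apply (φ : R →ₐ[𝒪] DualNumber (ResidueField 𝒪)) (a : R) :
    φ a = TrivSqZeroExt.inl (resk hres a) + TrivSqZeroExt.inr (TrivSqZeroExt.snd (φ a)) := by
  apply TrivSqZeroExt.ext
  · simp [fst_algHom hres φ a]
  · simp

theorem zeroHom_not_surjective : ¬ Function.Surjective (zeroHom (R := R) hres) := by
  intro h
  obtain ⟨a, ha⟩ := h (TrivSqZeroExt.inr (1 : ResidueField 𝒪))
  rw [zeroHom_apply] at ha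
  have := congrArg TrivSqZeroExt.snd ha
  simp at this

/-- a map which is not onto is the zero tangent vector -/
theorem eq_zeroHom_of_not_surjective (φ : R →ₐ[𝒪] DualNumber (ResidueField 𝒪))
    (hφ : ¬ Function.Surjective φ) : φ = zeroHom hres := by
  by_contra hne
  apply hφ
  -- some `a` has non-zero `ε`-part
  have hex : ∃ a : R, TrivSqZeroExt.snd (φ a) ≠ 0 := by
    by_contra hall
    simp only [not_exists, ne_eq, not_not] at hall
    apply hne
    apply AlgHom.ext
    intro a
    rw [algHom_apply hres φ a, hall a, zeroHom_apply]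
    simp
  obtain ⟨a, ha⟩ := hex
  obtain ⟨c, hc⟩ := exists_sub_mem hres a
  set m := a - algebraMap 𝒪 R c with hm
  have hm1 : TrivSqZeroExt.fst (φ m) = 0 := fst_algHom_of_mem φ hc
  have hm2 : TrivSqZeroExt.snd (φ m) = TrivSqZeroExt.snd (φ a) := by
    rw [hm, map_sub, TrivSqZeroExt.snd_sub, AlgHom.commutes, snd_algebraMap, sub_zero]
  intro z
  obtain ⟨o, ho⟩ := residue_surjective (TrivSqZeroExt.fst z)
  obtain ⟨o', ho'⟩ := residue_surjective (TrivSqZeroExt.snd z * (TrivSqZeroExt.snd (φ a))⁻¹)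
  refine ⟨algebraMap 𝒪 R o + algebraMap 𝒪 R o' * m, ?_⟩
  apply TrivSqZeroExt.ext
  · rw [map_add, map_mul, AlgHom.commutes, AlgHom.commutes, TrivSqZeroExt.fst_add,
      TrivSqZeroExt.fst_mul, fst_algebraMap, hm1, mul_zero, add_zero, ho]
  · rw [map_add, map_mul, AlgHom.commutes, AlgHom.commutes, TrivSqZeroExt.snd_add,
      TrivSqZeroExt.snd_mul, snd_algebraMap, fst_algebraMap, hm1, hm2, zero_add, ho']
    simp [ha]

end Hom

/-! ### the universal property at the dual numbers -/

section Univ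

variable {𝒪 : Type} [CommRing 𝒪] [IsDomain 𝒪] [IsDiscreteValuationRing 𝒪]
  [IsAdicComplete (maximalIdeal 𝒪) 𝒪]
  {ρbar : ResidualGaloisRep (ResidueField 𝒪)}
  {𝒟 : ∀ ⦃A : Type⦄ [CommRing A] [IsLocalRing A] [Algebra 𝒪 A], GaloisRepAdic A → Prop}
  (DQ : GaloisRep.DeformationRingData 𝒪 ρbar 𝒟)

attribute [local instance] algDual

/-- the push-forward of the universal deformation along `φ : R → k[ε]` -/
def liftOf (φ : DQ.R →ₐ[𝒪] DualNumber (ResidueField 𝒪)) :
    GaloisRepAdic (DualNumber (ResidueField 𝒪)) :=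
  DQ.ρ.baseChangeAlong (φ : DQ.R →+* DualNumber (ResidueField 𝒪))
    (isLocalHom_algHom DQ.residue_surjective φ)

/-- the residual representation of `liftOf φ` is `ρbar` -/
theorem residual_liftOf (φ : DQ.R →ₐ[𝒪] DualNumber (ResidueField 𝒪)) :
    haveI := isLocalHom_algebraMap_dual 𝒪
    (liftOf DQ φ).residual.IsEquiv
      (ρbar.baseChangeAlong (ResidueField.map (algebraMap 𝒪 (DualNumber (ResidueField 𝒪))))) := by
  haveI := isLocalHom_algebraMap_dual 𝒪
  have hφ := isLocalHom_algHom DQ.residue_surjective φ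
  -- matrix forms
  let rbar := resMatOf ρbar (resSomeBasis ρbar)
  have hrbar : GaloisFactorsThroughFiniteLevel rbar := factors_resMatOf ρbar (resSomeBasis ρbar)
  have e0 : ρbar.IsEquiv (resOfMat rbar hrbar) := ⟨resEquivOfMatMatOf ρbar (resSomeBasis ρbar)⟩
  obtain ⟨r, hr, e1, h1⟩ := exists_matrix_lift ρbar rbar hrbar e0 DQ.ρ DQ.residual_isEquiv
  have e2 : (liftOf DQ φ).IsEquiv
      (ofMat (mapMat (φ : DQ.R →+* DualNumber (ResidueField 𝒪)) r)
        (isContMat_mapMat _ hφ r hr)) :=
    isEquiv_trans (isEquiv_baseChangeAlong _ hφ e1) (baseChangeAlong_ofMat _ hφ r hr)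
  have h2 : mapMat (residue (DualNumber (ResidueField 𝒪)))
      (mapMat (φ : DQ.R →+* DualNumber (ResidueField 𝒪)) r) =
      mapMat (ResidueField.map (algebraMap 𝒪 (DualNumber (ResidueField 𝒪)))) rbar := by
    ext σ i j
    have h3 : residue DQ.R (r σ i j) =
        ResidueField.map (algebraMap 𝒪 DQ.R) (rbar σ i j) := by
      have := congrArg (fun t : GQ →* Mat (ResidueField DQ.R) => t σ i j) h1
      simpa using this
    rw [mapMat_apply', mapMat_apply', mapMat_apply']
    show residue _ ((φ : DQ.R →+* DualNumber (ResidueField 𝒪)) (r σ i j)) = _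
    haveI := hφ
    rw [← ResidueField.map_residue (φ : DQ.R →+* DualNumber (ResidueField 𝒪)), h3]
    obtain ⟨o, ho⟩ := residue_surjective (rbar σ i j)
    show ResidueField.map _ (ResidueField.map _ (rbar σ i j)) = ResidueField.map _ (rbar σ i j)
    rw [← ho, ResidueField.map_residue, ResidueField.map_residue, ResidueField.map_residue]
    congr 1
    exact φ.commutes o
  obtain ⟨e3⟩ := e2
  exact ⟨e3.residual.trans
    (residual_ofMat_isEquiv ρbar rbar hrbar e0 _ (isContMat_mapMat _ hφ r hr) h2).some⟩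

/-- **uniqueness**: `liftOf` detects the algebra map -/
theorem eq_of_isEquiv (φ ψ : DQ.R →ₐ[𝒪] DualNumber (ResidueField 𝒪))
    (hψ : 𝒟 (liftOf DQ ψ)) (h : (liftOf DQ φ).IsEquiv (liftOf DQ ψ)) : φ = ψ := by
  haveI := isLocalHom_algebraMap_dual 𝒪
  obtain ⟨χ, -, huniq⟩ := DQ.universal (DualNumber (ResidueField 𝒪))
    (residue_dual_surjective 𝒪) (liftOf DQ ψ) hψ (residual_liftOf DQ ψ)
  have h1 : φ = χ := huniq φ ⟨isLocalHom_algHom DQ.residue_surjective φ, h⟩
  have h2 : ψ = χ := huniq ψ ⟨isLocalHom_algHom DQ.residue_surjective ψ, isEquiv_refl _⟩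
  rw [h1, h2]

/-- **(T3)** counting `𝒪`-algebra maps `R → k[ε]` through the universal property: the type `𝒟`
is only needed for `liftOf φ` with `φ` onto. -/
theorem card_algHom_le {X : Type*} [Finite X] (x₀ : X)
    (cls : (DQ.R →ₐ[𝒪] DualNumber (ResidueField 𝒪)) → X)
    (hbc : ∀ φ : DQ.R →ₐ[𝒪] DualNumber (ResidueField 𝒪), Function.Surjective φ →
      𝒟 (liftOf DQ φ))
    (hinj : ∀ φ ψ : DQ.R →ₐ[𝒪] DualNumber (ResidueField 𝒪), Function.Surjective φ →
      Function.Surjective ψ → cls φ = cls ψ → (liftOf DQ φ).IsEquiv (liftOf DQ ψ))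
    (h0 : ∀ φ : DQ.R →ₐ[𝒪] DualNumber (ResidueField 𝒪), Function.Surjective φ → cls φ = x₀ →
      (liftOf DQ φ).IsEquiv (liftOf DQ (zeroHom DQ.residue_surjective))) :
    Finite (DQ.R →ₐ[𝒪] DualNumber (ResidueField 𝒪)) ∧
      Nat.card (DQ.R →ₐ[𝒪] DualNumber (ResidueField 𝒪)) ≤ Nat.card X := by
  classical
  let F : (DQ.R →ₐ[𝒪] DualNumber (ResidueField 𝒪)) → X :=
    fun φ => if Function.Surjective φ then cls φ else x₀
  have hF : Function.Injective F := by
    intro φ ψ hφψ
    by_cases h1 : Function.Surjective φ <;> by_cases h2 : Function.Surjective ψ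
    · simp only [F, if_pos h1, if_pos h2] at hφψ
      exact eq_of_isEquiv DQ φ ψ (hbc ψ h2) (hinj φ ψ h1 h2 hφψ)
    · exfalso
      simp only [F, if_pos h1, if_neg h2] at hφψ
      have h3 := eq_of_isEquiv DQ _ _ (hbc φ h1) (isEquiv_symm (h0 φ h1 hφψ))
      exact zeroHom_not_surjective DQ.residue_surjective (h3 ▸ h1)
    · exfalso
      simp only [F, if_neg h1, if_pos h2] at hφψ
      have h3 := eq_of_isEquiv DQ _ _ (hbc ψ h2) (isEquiv_symm (h0 ψ h2 hφψ.symm))
      exact zeroHom_not_surjective DQ.residue_surjective (h3 ▸ h2)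
    · rw [eq_zeroHom_of_not_surjective DQ.residue_surjective φ h1,
        eq_zeroHom_of_not_surjective DQ.residue_surjective ψ h2]
  exact ⟨Finite.of_injective F hF, Nat.card_le_card_of_injective F hF⟩

end Univ

end Fermat.Agent.S56.Tan.Universal
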