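import Mathlib
import Fermat.Agent.S30.Algebra.Cyclotomic
import Fermat.Agent.S56.Coh.CocDefs
import Fermat.Agent.S56.Tan.Universal

/-!
# S56 (a6), step (T5): from lifts over `k[ε]` to Selmer cocycles

* `exists_matLift` : a lift `ρ_A` over `k[ε]` with residual representation `ρbar` and cyclotomic
  determinant is equivalent to `ofMat L.r L.cont` for a `MatLift` `L` of `rbar`;
* `isEquiv_of_sub_eq` : cohomologous cocycles come from equivalent lifts (the EASY direction);
* `isUnramAt_cocOf` : unramified lifts have unramified cocycles;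
* `cocOf_mem_SelZ` : the cocycle of a lift of the S56 type is a Selmer cocycle for `LcFam`.
-/

set_option autoImplicit false
set_option linter.unusedSectionVars false
set_option linter.style.haveILetI false

noncomputable section

namespace Fermat.Agent.S56.Tan.Cocycle

open IsLocalRing
open Fermat.Agent.CFT.LC Fermat.Agent.CFT.Bridge Fermat.Agent.CFT.LocalBridge
open Fermat.Agent.S56.Coh Fermat.Agent.S56.Coh.CocDefs
open Fermat.Agent.S53.Dictionary hiding GQ
open Fermat.Agent.S53.TangentBound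

variable {k : Type} [Field k]

/-! ### units `1 + ε m` and conjugation -/

/-- the matrix `X + ε Y` over the dual numbers -/
def mkMat (X Y : Mat k) : Mat (DualNumber k) :=
  Matrix.of fun i j => TrivSqZeroExt.inl (X i j) + TrivSqZeroExt.inr (Y i j)

@[simp] theorem mfst_mkMat (X Y : Mat k) : mfst (mkMat X Y) = X := by
  ext i j
  simp [mkMat]

@[simp] theorem msnd_mkMat (X Y : Mat k) : msnd (mkMat X Y) = Y := by
  ext i j
  simp [mkMat]

theorem msnd_one : msnd (1 : Mat (DualNumber k)) = 0 := by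
  ext i j
  fin_cases i <;> fin_cases j <;> simp

/-- the unit `1 + ε m` -/
def oneAddEps (m : Mat k) : (Mat (DualNumber k))ˣ where
  val := mkMat 1 m
  inv := mkMat 1 (-m)
  val_inv := by
    apply ext_of_mfst_msnd
    · rw [mfst_mul, mfst_mkMat, mfst_mkMat, mfst_one, Matrix.one_mul]
    · rw [msnd_mul, mfst_mkMat, mfst_mkMat, msnd_mkMat, msnd_mkMat, msnd_one, Matrix.one_mul,
        Matrix.mul_one, neg_add_cancel]
  inv_val := by
    apply ext_of_mfst_msnd
    · rw [mfst_mul, mfst_mkMat, mfst_mkMat, mfst_one, Matrix.one_mul]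
    · rw [msnd_mul, mfst_mkMat, mfst_mkMat, msnd_mkMat, msnd_mkMat, msnd_one, Matrix.one_mul,
        Matrix.mul_one, add_neg_cancel]

variable {rbar : GQ →* GL (Fin 2) k}

/-- **the easy direction**: if the cocycles of two matrix lifts differ by the coboundary of `m`,
the lifts are conjugate by `1 + ε m`. -/
theorem isEquiv_of_sub_eq (L L' : MatLift rbar) (m : Mrep rbar)
    (h : ∀ σ, cocOf L σ - cocOf L' σ = (Mrep rbar).ρ σ m - m) :
    (ofMat L.r L.cont).IsEquiv (ofMat L'.r L'.cont) := by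
  rw [isEquiv_ofMat_iff]
  refine ⟨oneAddEps (m : sl2 k).1, fun σ => ?_⟩
  show mkMat 1 (m : sl2 k).1 * L.r σ = L'.r σ * mkMat 1 (m : sl2 k).1
  apply ext_of_mfst_msnd
  · rw [mfst_mul, mfst_mul, mfst_mkMat, L.fst_eq, L'.fst_eq, Matrix.one_mul, Matrix.mul_one]
  · rw [msnd_mul, msnd_mul, mfst_mkMat, msnd_mkMat, L.fst_eq, L'.fst_eq, Matrix.one_mul,
      Matrix.mul_one, msnd_eq L, msnd_eq L']
    have h1 := congrArg (fun x : sl2 k => (x : Matrix (Fin 2) (Fin 2) k)) (h σ)
    simp only [Submodule.coe_sub] at h1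
    rw [Mrep_ρ_coe] at h1
    -- `c σ - c' σ = rbar σ * m * (rbar σ)⁻¹ - m`
    have h2 : (cocOf L σ : sl2 k).1 * (rbar σ : Matrix (Fin 2) (Fin 2) k) -
        (cocOf L' σ : sl2 k).1 * (rbar σ : Matrix (Fin 2) (Fin 2) k) =
        (rbar σ : Matrix (Fin 2) (Fin 2) k) * (m : sl2 k).1 -
          (m : sl2 k).1 * (rbar σ : Matrix (Fin 2) (Fin 2) k) := by
      rw [← Matrix.sub_mul, h1, Matrix.sub_mul, Matrix.mul_assoc, ← Units.val_mul,
        inv_mul_cancel, Units.val_one, Matrix.mul_one]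
    have h3 := sub_eq_sub_iff_add_eq_add.1 h2
    rw [h3, add_comm]


/-! ### determinants -/

section Det

variable {A : Type} [CommRing A] [IsLocalRing A]

theorem det_ofMat (r : GQ →* Mat A) (h : IsContMat A r) (σ : GQ) :
    LinearMap.det ((ofMat r h).ρ σ) = (r σ).det := by
  show LinearMap.det (toEnd A (r σ)) = _
  have : toEnd A (r σ) = Matrix.toLin' (r σ) := by
    refine LinearMap.ext fun v => ?_
    rw [toEnd_apply, Matrix.toLin'_apply]
  rw [this, LinearMap.det_toLin']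

theorem det_eq_of_equiv {ρ ρ' : GaloisRepAdic A} (e : GaloisRepAdic.Equiv ρ ρ') (σ : GQ) :
    LinearMap.det (ρ'.ρ σ) = LinearMap.det (ρ.ρ σ) := by
  have h : ρ'.ρ σ = (e.toLinearEquiv : ρ.V →ₗ[A] ρ'.V) ∘ₗ ρ.ρ σ ∘ₗ
      (e.toLinearEquiv.symm : ρ'.V →ₗ[A] ρ.V) := by
    ext y
    simp only [LinearMap.comp_apply, LinearEquiv.coe_coe]
    rw [e.map_apply, LinearEquiv.apply_symm_apply]
  rw [h, LinearMap.det_conj]

theorem detIsCyclotomic_of_isEquiv {ρ ρ' : GaloisRepAdic A} (h : ρ.IsEquiv ρ') {p : ℕ}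
    (hρ : ρ.DetIsCyclotomic p) : ρ'.DetIsCyclotomic p := by
  obtain ⟨e⟩ := h
  refine ⟨hρ.1, fun n σ a ha => ?_⟩
  rw [det_eq_of_equiv e σ]
  exact hρ.2 n σ a ha

end Det

/-- the `ε`-part of the determinant of a lift with cyclotomic determinant vanishes -/
theorem snd_det_eq_zero (p : ℕ) [Fact p.Prime] (ρA : GaloisRepAdic (DualNumber k))
    (hdet : ρA.DetIsCyclotomic p) (σ : GQ) :
    TrivSqZeroExt.snd (LinearMap.det (ρA.ρ σ)) = 0 := by
  -- `p = 0` in `k[ε]`
  have hp0 : ((p : ℕ) : DualNumber k) = 0 := by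
    have h1 := hdet.1
    rw [mem_maximalIdeal_iff] at h1
    apply TrivSqZeroExt.ext
    · exact h1
    · simp
  have h2 := hdet.2 1 σ _ (fun μ hμ => Fermat.Agent.S30.Algebra.Cyclotomic.cyc_spec p σ 1 μ hμ)
  have h3 : ((p ^ 1 : ℕ) : DualNumber k) = 0 := by rw [pow_one, hp0]
  generalize (((Fermat.Agent.S30.Algebra.Cyclotomic.cyc p σ : ℤ_[p]ˣ) : ℤ_[p]).toZModPow 1).val
    = a at h2
  rw [h3, Ideal.span_singleton_zero, Ideal.mem_bot, sub_eq_zero] at h2
  rw [h2]
  simp


/-! ### matrix lifts of abstract lifts -/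

section Lift

variable {𝒪 : Type} [CommRing 𝒪] [IsLocalRing 𝒪]

attribute [local instance] algDual

/-- `rbar` as a homomorphism to the matrix monoid (the shape of the `S53` stock) -/
def rbarM (rbar : GQ →* GL (Fin 2) k) : GQ →* Mat k := (Units.coeHom (Mat k)).comp rbar

@[simp] theorem rbarM_apply (rbar : GQ →* GL (Fin 2) k) (σ : GQ) :
    rbarM rbar σ = (rbar σ : Matrix (Fin 2) (Fin 2) k) := rfl

variable (p : ℕ) [Fact p.Prime] {ρbar : ResidualGaloisRep (ResidueField 𝒪)}
  (rbar : GQ →* GL (Fin 2) (ResidueField 𝒪))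
  (hrbar : GaloisFactorsThroughFiniteLevel (rbarM rbar))
  (e0 : ρbar.IsEquiv (resOfMat (rbarM rbar) hrbar))

/-- a matrix over `k[ε]` whose residue is that of `inl X` has first component `X` -/
theorem mfst_eq_of_residue_eq (Y : Mat (DualNumber (ResidueField 𝒪))) (X : Mat (ResidueField 𝒪))
    (h : ∀ i j, residue (DualNumber (ResidueField 𝒪)) (Y i j) =
      residue (DualNumber (ResidueField 𝒪)) (TrivSqZeroExt.inl (X i j))) : mfst Y = X := by
  ext i j
  have h1 := h i j
  rw [← sub_eq_zero, ← map_sub, residue_eq_zero_iff, mem_maximalIdeal_iff, TrivSqZeroExt.fst_sub,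
    TrivSqZeroExt.fst_inl, sub_eq_zero] at h1
  exact h1

include e0 in
/-- **matrix form of a lift**: a lift over `k[ε]` with the right residual representation and
cyclotomic determinant is equivalent to `ofMat L.r L.cont` for a matrix lift `L` of `rbar`. -/
theorem exists_matLift (ρA : GaloisRepAdic (DualNumber (ResidueField 𝒪)))
    (hres : haveI := isLocalHom_algebraMap_dual 𝒪
      ρA.residual.IsEquiv
        (ρbar.baseChangeAlong (ResidueField.map (algebraMap 𝒪 (DualNumber (ResidueField 𝒪))))))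
    (hdet : ρA.DetIsCyclotomic p) :
    ∃ L : MatLift rbar, ρA.IsEquiv (ofMat L.r L.cont) := by
  haveI := isLocalHom_algebraMap_dual 𝒪
  obtain ⟨r, h, e, hr⟩ := exists_matrix_lift ρbar (rbarM rbar) hrbar e0 ρA hres
  have hfst : ∀ σ, mfst (r σ) = (rbar σ : Matrix (Fin 2) (Fin 2) (ResidueField 𝒪)) := by
    intro σ
    apply mfst_eq_of_residue_eq
    intro i j
    have h1 := congrArg (fun t : GQ →* Mat (ResidueField (DualNumber (ResidueField 𝒪))) =>
      t σ i j) hr
    simp only [mapMat_apply, rbarM_apply] at h1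
    rw [h1, residueFieldMap_algebraMap_dual]
    rfl
  have hd : ∀ σ, TrivSqZeroExt.snd (r σ).det = 0 := by
    intro σ
    have h1 := snd_det_eq_zero p _ (detIsCyclotomic_of_isEquiv e hdet) σ
    rwa [det_ofMat] at h1
  exact ⟨⟨r, h, hfst, hd⟩, e⟩

end Lift

section Triv

variable {𝒪 : Type} [CommRing 𝒪] [IsLocalRing 𝒪]
  (rbar : GQ →* GL (Fin 2) (ResidueField 𝒪))
  (hrbar : GaloisFactorsThroughFiniteLevel (rbarM rbar))

/-- the trivial lift -/
def trivLift : MatLift rbar where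
  r := mapMat (TrivSqZeroExt.inlHom (ResidueField 𝒪) (ResidueField 𝒪)) (rbarM rbar)
  cont := by
    intro n
    obtain ⟨F, hF, h1⟩ := hrbar
    refine ⟨F, hF, fun σ hσ i j => ?_⟩
    have : mapMat (TrivSqZeroExt.inlHom (ResidueField 𝒪) (ResidueField 𝒪)) (rbarM rbar) σ = 1 := by
      rw [mapMat_apply', h1 σ hσ, Matrix.map_one _ (map_zero _) (map_one _)]
    rw [this, sub_self]
    exact Ideal.zero_mem _
  fst_eq σ := by
    ext i j
    simp
  det_eq σ := by
    rw [mapMat_apply', ← RingHom.mapMatrix_apply, ← RingHom.map_det]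
    simp

theorem cocOf_trivLift (σ : GQ) : cocOf (trivLift rbar hrbar) σ = 0 := by
  apply Subtype.ext
  rw [cocOf_coe]
  have : msnd ((trivLift rbar hrbar).r σ) = 0 := by
    ext i j
    simp [trivLift]
  rw [this, Matrix.zero_mul]
  rfl

end Triv


/-! ### unramified lifts -/

section Unram

variable {A : Type} [CommRing A] [IsLocalRing A]

theorem eq_one_of_ofMat_ρ_eq_one (r : GQ →* Mat A) (h : IsContMat A r) {σ : GQ}
    (h1 : (ofMat r h).ρ σ = 1) : r σ = 1 := by
  have h2 : toEnd A (r σ) = toEnd A 1 := by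
    rw [map_one]
    exact h1
  have hinj : Function.Injective (toEnd A) := by
    intro X Y hXY
    have : ∀ v, X.mulVec v = Y.mulVec v := fun v => by
      rw [← toEnd_apply, ← toEnd_apply, hXY]
    ext i j
    have h3 := congrFun (this (Pi.single j 1)) i
    simpa using h3
  exact hinj h2

theorem isUnramifiedAt_of_isEquiv {ρ ρ' : GaloisRepAdic A} (h : ρ.IsEquiv ρ') {q : ℕ}
    (hρ : ρ.IsUnramifiedAt q) : ρ'.IsUnramifiedAt q := by
  obtain ⟨e⟩ := h
  intro P hP σ hσ
  have h1 := hρ P hP σ hσ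
  ext y
  have h2 := e.map_apply σ (e.toLinearEquiv.symm y)
  rw [LinearEquiv.apply_symm_apply, h1, Module.End.one_apply, LinearEquiv.apply_symm_apply] at h2
  rw [Module.End.one_apply, ← h2]

end Unram

theorem isUnramAt_cocOf (L : MatLift rbar) (q : ℕ) [Fact q.Prime]
    (h : (ofMat L.r L.cont).IsUnramifiedAt q) : IsUnramAt q (cocOf L) := by
  refine ⟨0, fun s hs => ?_⟩
  have h1 : (ofMat L.r L.cont).ρ s = 1 := h (padicPlace q) (liesOverPrime_padicPlace q) s hs
  rw [cocOf_of_eq_one L (eq_one_of_ofMat_ρ_eq_one L.r L.cont h1), map_zero, sub_zero]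

/-! ### Selmer cocycles -/

theorem mem_ofLocal_L {B : Rep.{0} k GQ}
    (Lq : ∀ (q : ℕ) [Fact q.Prime], Submodule k (↥(Dq q) → resRep (Dq q) B)) (q : ℕ)
    [hq : Fact q.Prime] (c : GQ → B) :
    c ∈ (LocCond.ofLocal Lq).L q ↔ resFun (Dq q) c ∈ Lq q := by
  unfold LocCond.ofLocal
  simp only [dif_pos hq.out]
  rfl

theorem ofLocal_L_of_not_prime {B : Rep.{0} k GQ}
    (Lq : ∀ (q : ℕ) [Fact q.Prime], Submodule k (↥(Dq q) → resRep (Dq q) B)) (q : ℕ)
    (hq : ¬ q.Prime) : (LocCond.ofLocal Lq).L q = ⊤ := by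
  unfold LocCond.ofLocal
  simp only [dif_neg hq]

/-- **the cocycle of a lift of the S56 type is a Selmer cocycle** -/
theorem cocOf_mem_SelZ (p : ℕ) (Smin Q : Finset ℕ)
    (Pp : GaloisRepAdic (DualNumber k) → Prop)
    (L : MatLift rbar) (hp : Pp (ofMat L.r L.cont))
    (hun : ∀ q ∈ Smin, q.Prime → q ≠ p → Punip p q (ofMat L.r L.cont))
    (hur : ∀ q : ℕ, q.Prime → q ∉ Smin ∪ Q → (ofMat L.r L.cont).IsUnramifiedAt q) :
    cocOf L ∈ SelZ (Smin ∪ Q) (LocCond.ofLocal (LcFam rbar p Smin Pp)) := by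
  classical
  rw [mem_SelZ_iff]
  refine ⟨cocOf_mem_Z1g L, fun q hq hqS => isUnramAt_cocOf L q (hur q hq.out hqS),
    fun q hqS => ?_⟩
  by_cases hqprime : q.Prime
  · haveI : Fact q.Prime := ⟨hqprime⟩
    rw [mem_ofLocal_L]
    by_cases hqp : q = p
    · subst hqp
      rw [LcFam_self]
      exact resFun_cocOf_mem_LcOf q L hp
    · by_cases hq : q ∈ Smin
      · rw [LcFam_of_mem p Smin Pp q hqp hq]
        exact resFun_cocOf_mem_LcOf q L (hun q hq hqprime hqp)
      · rw [LcFam_of_not_mem p Smin Pp q hqp hq]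
        exact resFun_mem_Z1 _ (cocOf_mem_Z1g L)
  · rw [ofLocal_L_of_not_prime _ q hqprime]
    exact Submodule.mem_top

end Fermat.Agent.S56.Tan.Cocycle
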