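import Mathlib
import Fermat.Agent.S56.Tan.Cocycle

/-!
# S56 (a6), steps (T5)-(T6): `#Hom_𝒪(R_Q, k[ε]) ≤ #Sel(Smin ∪ Q, Lc_Q, M)` and the surjection
`𝒪⟦X₁,…,X_r⟧ → R_Q`

`DQ : DeformationRingData 𝒪 ρbar 𝒟`, `rbar` a matrix form of `ρbar`.  Hypotheses on `𝒟`, all at
the test ring `k[ε]`: (`hD`) a lift of type `𝒟` has cyclotomic determinant, the property `Pp` at
`p`, is unipotent on inertia at `q ∈ Smin`, `q ≠ p`, and is unramified outside `Smin ∪ Q`;
(`hDeq`) `𝒟` is invariant under equivalence; (`hbc`) `𝒟` is preserved by the base change of the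
universal deformation along every SURJECTIVE `φ : R → k[ε]`.
-/

set_option autoImplicit false
set_option linter.unusedSectionVars false
set_option linter.style.haveILetI false

noncomputable section

namespace Fermat.Agent.S56.Tan.Main

open IsLocalRing
open Fermat.Agent.CFT.LC Fermat.Agent.CFT.Bridge Fermat.Agent.CFT.LocalBridge
open Fermat.Agent.S56.Coh Fermat.Agent.S56.Coh.CocDefs
open Fermat.Agent.S53.Dictionary hiding GQ
open Fermat.Agent.S53.TangentBound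
open Fermat.Agent.S56.Tan.DualHom Fermat.Agent.S56.Tan.Universal Fermat.Agent.S56.Tan.Cocycle

variable {𝒪 : Type} [CommRing 𝒪] [IsDomain 𝒪] [IsDiscreteValuationRing 𝒪]
  [IsAdicComplete (maximalIdeal 𝒪) 𝒪]
  {ρbar : ResidualGaloisRep (ResidueField 𝒪)}
  {𝒟 : ∀ ⦃A : Type⦄ [CommRing A] [IsLocalRing A] [Algebra 𝒪 A], GaloisRepAdic A → Prop}
  (DQ : GaloisRep.DeformationRingData 𝒪 ρbar 𝒟)
  (rbar : GQ →* GL (Fin 2) (ResidueField 𝒪))
  (hrbar : GaloisFactorsThroughFiniteLevel (rbarM rbar))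
  (e0 : ρbar.IsEquiv (resOfMat (rbarM rbar) hrbar))

attribute [local instance] algDual

include e0 in
/-- the push-forward of the universal deformation along the zero tangent vector is the trivial
lift -/
theorem liftOf_zeroHom_isEquiv :
    (liftOf DQ (zeroHom DQ.residue_surjective)).IsEquiv
      (ofMat (trivLift rbar hrbar).r (trivLift rbar hrbar).cont) := by
  have hz := isLocalHom_algHom DQ.residue_surjective (zeroHom DQ.residue_surjective)
  obtain ⟨rR, hR, eR, hrR⟩ :=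
    exists_matrix_lift ρbar (rbarM rbar) hrbar e0 DQ.ρ DQ.residual_isEquiv
  have e2 : (liftOf DQ (zeroHom DQ.residue_surjective)).IsEquiv
      (ofMat (mapMat ((zeroHom DQ.residue_surjective : DQ.R →ₐ[𝒪] _) :
        DQ.R →+* DualNumber (ResidueField 𝒪)) rR) (isContMat_mapMat _ hz rR hR)) :=
    isEquiv_trans (isEquiv_baseChangeAlong _ hz eR) (baseChangeAlong_ofMat _ hz rR hR)
  refine isEquiv_trans e2 (ofMat_congr _ _ ?_)
  refine MonoidHom.ext fun σ => Matrix.ext fun i j => ?_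
  have h1 : residue DQ.R (rR σ i j) =
      ResidueField.map (algebraMap 𝒪 DQ.R)
        ((rbar σ : Matrix (Fin 2) (Fin 2) (ResidueField 𝒪)) i j) := by
    have := congrArg (fun t : GQ →* Mat (ResidueField DQ.R) => t σ i j) hrR
    simpa using this
  have h2 : resk DQ.residue_surjective (rR σ i j) =
      (rbar σ : Matrix (Fin 2) (Fin 2) (ResidueField 𝒪)) i j := by
    unfold resk
    rw [RingHom.comp_apply, RingHom.coe_coe, RingEquiv.symm_apply_eq, h1]
    rfl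
  show (zeroHom DQ.residue_surjective) (rR σ i j) = _
  rw [zeroHom_apply, h2]
  rfl


variable (p : ℕ) [Fact p.Prime] (Smin Q : Finset ℕ)
  (Pp : GaloisRepAdic (DualNumber (ResidueField 𝒪)) → Prop)

/-- the Selmer group of the S56 count -/
abbrev SelT : Type :=
  Sel (Smin ∪ Q) (LocCond.ofLocal (LcFam rbar p Smin Pp))

variable
  (hD : ∀ ρA : GaloisRepAdic (DualNumber (ResidueField 𝒪)), 𝒟 ρA →
    ρA.DetIsCyclotomic p ∧ Pp ρA ∧ (∀ q ∈ Smin, q.Prime → q ≠ p → Punip p q ρA) ∧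
      ∀ q : ℕ, q.Prime → q ∉ Smin ∪ Q → ρA.IsUnramifiedAt q)
  (hDeq : ∀ ρ ρ' : GaloisRepAdic (DualNumber (ResidueField 𝒪)), ρ.IsEquiv ρ' → 𝒟 ρ → 𝒟 ρ')
  (hbc : ∀ φ : DQ.R →ₐ[𝒪] DualNumber (ResidueField 𝒪), Function.Surjective φ →
    𝒟 (liftOf DQ φ))

include e0 hD in
/-- a matrix lift for `liftOf φ`, `φ` onto -/
theorem exists_matLift_liftOf (φ : DQ.R →ₐ[𝒪] DualNumber (ResidueField 𝒪))
    (hφ : 𝒟 (liftOf DQ φ)) :
    ∃ L : MatLift rbar, (liftOf DQ φ).IsEquiv (ofMat L.r L.cont) :=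
  exists_matLift p rbar hrbar e0 (liftOf DQ φ) (residual_liftOf DQ φ) (hD _ hφ).1

include hD hDeq in
theorem cocOf_mem_SelZ_of_isEquiv {ρA : GaloisRepAdic (DualNumber (ResidueField 𝒪))}
    (hρA : 𝒟 ρA) (L : MatLift rbar) (hL : ρA.IsEquiv (ofMat L.r L.cont)) :
    cocOf L ∈ SelZ (Smin ∪ Q) (LocCond.ofLocal (LcFam rbar p Smin Pp)) := by
  obtain ⟨-, h2, h3, h4⟩ := hD _ (hDeq _ _ hL hρA)
  exact cocOf_mem_SelZ p Smin Q Pp L h2 h3 h4

open Classical in
/-- the class map `Hom_𝒪(R, k[ε]) → Sel` -/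
def cls (φ : DQ.R →ₐ[𝒪] DualNumber (ResidueField 𝒪)) : SelT rbar p Smin Q Pp :=
  if h : Function.Surjective φ then
    Submodule.Quotient.mk
      ⟨cocOf (exists_matLift_liftOf DQ rbar hrbar e0 p Smin Q Pp hD φ (hbc φ h)).choose,
        cocOf_mem_SelZ_of_isEquiv rbar p Smin Q Pp hD hDeq (hbc φ h) _
          (exists_matLift_liftOf DQ rbar hrbar e0 p Smin Q Pp hD φ (hbc φ h)).choose_spec⟩
  else 0

/-- two Selmer cocycles with the same class differ by a coboundary -/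
theorem exists_of_mk_eq {Sg : Finset ℕ} {B : Rep.{0} (ResidueField 𝒪) GQ} {Lc : LocCond B}
    (c c' : SelZ Sg Lc)
    (h : (Submodule.Quotient.mk c : Sel Sg Lc) = Submodule.Quotient.mk c') :
    ∃ a : B, ∀ σ, c.1 σ - c'.1 σ = B.ρ σ a - a := by
  rw [Submodule.Quotient.eq, Submodule.mem_comap] at h
  obtain ⟨a, -, ha⟩ := (mem_B₁_iff _).1 h
  refine ⟨a, fun σ => ?_⟩
  have := congrFun ha σ
  rw [groupCohomology.d₀₁_hom_apply] at this
  rw [this]
  rfl

include e0 hD hDeq hbc in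
/-- **(T5)** `#Hom_𝒪(R_Q, k[ε]) ≤ #Sel(Smin ∪ Q, Lc_Q, M)` -/
theorem card_algHom_le_card_sel [Finite (SelT rbar p Smin Q Pp)] :
    Finite (DQ.R →ₐ[𝒪] DualNumber (ResidueField 𝒪)) ∧
      Nat.card (DQ.R →ₐ[𝒪] DualNumber (ResidueField 𝒪)) ≤
        Nat.card (SelT rbar p Smin Q Pp) := by
  classical
  refine Universal.card_algHom_le DQ (0 : SelT rbar p Smin Q Pp)
    (cls DQ rbar hrbar e0 p Smin Q Pp hD hDeq hbc) hbc ?_ ?_
  · intro φ ψ hφ hψ h
    unfold cls at h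
    rw [dif_pos hφ, dif_pos hψ] at h
    obtain ⟨a, ha⟩ := exists_of_mk_eq _ _ h
    have e1 := (exists_matLift_liftOf DQ rbar hrbar e0 p Smin Q Pp hD φ (hbc φ hφ)).choose_spec
    have e2 := (exists_matLift_liftOf DQ rbar hrbar e0 p Smin Q Pp hD ψ (hbc ψ hψ)).choose_spec
    exact isEquiv_trans e1 (isEquiv_trans (isEquiv_of_sub_eq _ _ a ha) (isEquiv_symm e2))
  · intro φ hφ h
    unfold cls at h
    rw [dif_pos hφ] at h
    obtain ⟨a, ha⟩ := exists_of_mk_eq _ 0 (h.trans (Submodule.Quotient.mk_zero _).symm)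
    have e1 := (exists_matLift_liftOf DQ rbar hrbar e0 p Smin Q Pp hD φ (hbc φ hφ)).choose_spec
    refine isEquiv_trans e1 (isEquiv_trans (isEquiv_of_sub_eq _ (trivLift rbar hrbar) a ?_)
      (isEquiv_symm (liftOf_zeroHom_isEquiv DQ rbar hrbar e0)))
    intro σ
    rw [cocOf_trivLift]
    exact ha σ

include e0 hD hDeq hbc in
/-- **(T6)** chief's seam [a6]: if the Selmer group has at most `(#k) ^ r` elements then
`R_Q` is a quotient of `𝒪⟦X₁,…,X_r⟧`. -/
theorem exists_surjective_of_card_sel_le [Finite (ResidueField 𝒪)]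
    [Finite (SelT rbar p Smin Q Pp)] {r : ℕ}
    (hcard : Nat.card (SelT rbar p Smin Q Pp) ≤ Nat.card (ResidueField 𝒪) ^ r) :
    ∃ γ : MvPowerSeries (Fin r) 𝒪 →ₐ[𝒪] DQ.R, Function.Surjective γ := by
  obtain ⟨hfin, hle⟩ := card_algHom_le_card_sel DQ rbar hrbar e0 p Smin Q Pp hD hDeq hbc
  haveI := hfin
  exact exists_surjective_of_card_le DQ.residue_surjective (hle.trans hcard)

end Fermat.Agent.S56.Tan.Main
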