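import Mathlib
import Fermat.Prelude.Def_GaloisRep_Flat

/-!
# PROJECT T (S56), block (a6), (T4): the predicate behind `IsFlatAt`

`IsFlatMod p T act` : the additive Galois set `(T, act)` is the group of `ℚ̄`-points of a finite
flat commutative cocommutative Hopf algebra over `ℤ_(p)` (the existential tail of the Prelude's
`GaloisRepAdic.IsFlatAt`, verbatim).  It is invariant under equivariant additive bijections
(`IsFlatMod.of_equiv`) and stable under binary products (`IsFlatMod.prod`, tensor product of Hopf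
algebras).
-/

set_option autoImplicit false
set_option linter.unusedSectionVars false

noncomputable section

namespace Fermat.Agent.S56.Tan.FlatMod

open scoped TensorProduct
open WithConv

local notation "Γ" => (AlgebraicClosure ℚ ≃ₐ[ℚ] AlgebraicClosure ℚ)
local notation "Kb" => AlgebraicClosure ℚ

/-- the existential tail of `GaloisRepAdic.IsFlatAt` for an additive Galois set `(T, act)` -/
def IsFlatMod (p : ℕ) (T : Type) [Add T] (act : Γ → T → T) : Prop :=
  ∃ (H : Type) (_ : CommRing H) (_ : HopfAlgebra (GaloisRep.ratLocalizedAt p) H),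
    Module.Finite (GaloisRep.ratLocalizedAt p) H ∧
    Module.Flat (GaloisRep.ratLocalizedAt p) H ∧
    Coalgebra.IsCocomm (GaloisRep.ratLocalizedAt p) H ∧
    ∃ e : WithConv (H →ₐ[GaloisRep.ratLocalizedAt p] Kb) ≃ T,
      (∀ f g : WithConv (H →ₐ[GaloisRep.ratLocalizedAt p] Kb), e (f * g) = e f + e g) ∧
      ∀ (σ : Γ) (f g : WithConv (H →ₐ[GaloisRep.ratLocalizedAt p] Kb)),
        (∀ h : H, g h = σ (f h)) → e g = act σ (e f)

/-- `IsFlatAt` in terms of `IsFlatMod` -/
theorem isFlatAt_iff {A : Type} [CommRing A] [IsLocalRing A] (ρ : GaloisRepAdic A) (p : ℕ) :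
    ρ.IsFlatAt p ↔ Finite (IsLocalRing.ResidueField A) ∧ ∀ I : Ideal A, Finite (A ⧸ I) →
      IsFlatMod p (ρ.V ⧸ (I • (⊤ : Submodule A ρ.V))) (fun σ => ρ.levelAction I σ) :=
  Iff.rfl

variable {p : ℕ}

/-- transport along an equivariant additive bijection -/
theorem IsFlatMod.of_equiv {T T' : Type} [Add T] [Add T'] {act : Γ → T → T} {act' : Γ → T' → T'}
    (h : IsFlatMod p T act) (ε : T ≃ T') (hadd : ∀ x y, ε (x + y) = ε x + ε y)
    (hact : ∀ σ x, ε (act σ x) = act' σ (ε x)) : IsFlatMod p T' act' := by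
  obtain ⟨H, i1, i2, h1, h2, h3, e, he1, he2⟩ := h
  refine ⟨H, i1, i2, h1, h2, h3, e.trans ε, fun f g => ?_, fun σ f g hfg => ?_⟩
  · rw [Equiv.trans_apply, he1, hadd]
    rfl
  · rw [Equiv.trans_apply, he2 σ f g hfg, hact]
    rfl

/-! ### products: the tensor product of the Hopf algebras -/

section Prod

variable {R : Type} [CommRing R] {H₁ H₂ : Type} [CommRing H₁] [CommRing H₂]
  [HopfAlgebra R H₁] [HopfAlgebra R H₂]

/-- `a ↦ a ⊗ 1` as a bialgebra homomorphism -/
def inclL : H₁ →ₐc[R] H₁ ⊗[R] H₂ :=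
  (Bialgebra.TensorProduct.map (BialgHom.id R H₁) (Bialgebra.unitBialgHom R H₂)).comp
    (Bialgebra.TensorProduct.rid R R H₁).symm.toBialgHom

/-- `b ↦ 1 ⊗ b` as a bialgebra homomorphism -/
def inclR : H₂ →ₐc[R] H₁ ⊗[R] H₂ :=
  (Bialgebra.TensorProduct.map (Bialgebra.unitBialgHom R H₁) (BialgHom.id R H₂)).comp
    (Bialgebra.TensorProduct.lid R H₂).symm.toBialgHom

theorem inclL_apply (a : H₁) : inclL (R := R) (H₂ := H₂) a = a ⊗ₜ[R] 1 := by
  show (Bialgebra.TensorProduct.map (BialgHom.id R H₁) (Bialgebra.unitBialgHom R H₂))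
    ((Bialgebra.TensorProduct.rid R R H₁).symm a) = a ⊗ₜ[R] 1
  rw [Bialgebra.TensorProduct.rid_symm_apply, Bialgebra.TensorProduct.map_tmul]
  simp

theorem inclR_apply (b : H₂) : inclR (R := R) (H₁ := H₁) b = 1 ⊗ₜ[R] b := by
  show (Bialgebra.TensorProduct.map (Bialgebra.unitBialgHom R H₁) (BialgHom.id R H₂))
    ((Bialgebra.TensorProduct.lid R H₂).symm b) = 1 ⊗ₜ[R] b
  rw [Bialgebra.TensorProduct.lid_symm_apply, Bialgebra.TensorProduct.map_tmul]
  simp

variable {C : Type} [CommRing C] [Algebra R C]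

/-- the points of the tensor product are the pairs of points -/
def pointsProd :
    WithConv (H₁ ⊗[R] H₂ →ₐ[R] C) ≃ WithConv (H₁ →ₐ[R] C) × WithConv (H₂ →ₐ[R] C) where
  toFun F := (toConv (F.ofConv.comp (inclL : H₁ →ₐc[R] H₁ ⊗[R] H₂)),
    toConv (F.ofConv.comp (inclR : H₂ →ₐc[R] H₁ ⊗[R] H₂)))
  invFun fg := toConv (Algebra.TensorProduct.productMap fg.1.ofConv fg.2.ofConv)
  left_inv F := by
    apply ofConv_injective
    apply Algebra.TensorProduct.ext'
    intro a b
    show (F.ofConv (inclL (R := R) (H₂ := H₂) a)) * (F.ofConv (inclR (R := R) (H₁ := H₁) b))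
      = F.ofConv (a ⊗ₜ[R] b)
    rw [inclL_apply, inclR_apply, ← map_mul, Algebra.TensorProduct.tmul_mul_tmul, mul_one, one_mul]
  right_inv fg := by
    refine Prod.ext ?_ ?_
    · apply ofConv_injective
      ext a
      show Algebra.TensorProduct.productMap fg.1.ofConv fg.2.ofConv
        (inclL (R := R) (H₂ := H₂) a) = fg.1.ofConv a
      rw [inclL_apply]
      simp
    · apply ofConv_injective
      ext b
      show Algebra.TensorProduct.productMap fg.1.ofConv fg.2.ofConv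
        (inclR (R := R) (H₁ := H₁) b) = fg.2.ofConv b
      rw [inclR_apply]
      simp

theorem pointsProd_mul (F G : WithConv (H₁ ⊗[R] H₂ →ₐ[R] C)) :
    pointsProd (F * G) = ((pointsProd F).1 * (pointsProd G).1,
      (pointsProd F).2 * (pointsProd G).2) := by
  refine Prod.ext ?_ ?_
  · apply ofConv_injective
    exact AlgHom.convMul_comp_bialgHom_distrib F G (inclL : H₁ →ₐc[R] H₁ ⊗[R] H₂)
  · apply ofConv_injective
    exact AlgHom.convMul_comp_bialgHom_distrib F G (inclR : H₂ →ₐc[R] H₁ ⊗[R] H₂)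

theorem pointsProd_fst_apply (F : WithConv (H₁ ⊗[R] H₂ →ₐ[R] C)) (a : H₁) :
    (pointsProd F).1 a = F (a ⊗ₜ[R] 1) := by
  show F.ofConv (inclL (R := R) (H₂ := H₂) a) = _
  rw [inclL_apply]

theorem pointsProd_snd_apply (F : WithConv (H₁ ⊗[R] H₂ →ₐ[R] C)) (b : H₂) :
    (pointsProd F).2 b = F (1 ⊗ₜ[R] b) := by
  show F.ofConv (inclR (R := R) (H₁ := H₁) b) = _
  rw [inclR_apply]

end Prod

/-- **binary products** -/
theorem IsFlatMod.prod {T₁ T₂ : Type} [Add T₁] [Add T₂] {act₁ : Γ → T₁ → T₁}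
    {act₂ : Γ → T₂ → T₂} (h₁ : IsFlatMod p T₁ act₁) (h₂ : IsFlatMod p T₂ act₂) :
    IsFlatMod p (T₁ × T₂) (fun σ x => (act₁ σ x.1, act₂ σ x.2)) := by
  obtain ⟨H₁, i1, i2, h1, h2, h3, e₁, he1, he2⟩ := h₁
  obtain ⟨H₂, j1, j2, k1, k2, k3, e₂, ke1, ke2⟩ := h₂
  refine ⟨H₁ ⊗[GaloisRep.ratLocalizedAt p] H₂, inferInstance, inferInstance, inferInstance,
    inferInstance, inferInstance, pointsProd.trans (Equiv.prodCongr e₁ e₂), fun F G => ?_,
    fun σ F G hFG => ?_⟩
  · rw [Equiv.trans_apply, pointsProd_mul]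
    show (e₁ _, e₂ _) = _
    rw [he1, ke1]
    rfl
  · have hA := he2 σ (pointsProd F).1 (pointsProd G).1 fun a => by
      rw [pointsProd_fst_apply, pointsProd_fst_apply]; exact hFG _
    have hB := ke2 σ (pointsProd F).2 (pointsProd G).2 fun b => by
      rw [pointsProd_snd_apply, pointsProd_snd_apply]; exact hFG _
    exact Prod.ext hA hB

end Fermat.Agent.S56.Tan.FlatMod
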