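import Mathlib
import Fermat.Prelude.Def_GaloisRep_LocalConditions
import Fermat.Prelude.Def_GaloisRep_StrictOrdinary
import Fermat.Prelude.Def_GaloisRep_Flat
import Fermat.Agent.S56.Tan.FlatMod

/-!
# PROJECT T (S56), block (a6), (T4): the Prelude's local conditions are stable under base change

* **Invariance under `IsEquiv`** (`*_of_isEquiv`): `IsUnramifiedAt q`, `DetIsCyclotomic p`,
  `IsUnipotentOnInertiaAt q`, `IsOrdinaryAt p`, `IsStrictOrdinaryAt p`, `IsFlatAt p`, and the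
  assembled conditions `so_of_isEquiv`, `fl_of_isEquiv`.
* **Base change** (`*_baseChangeAlong`): `A`, `B` local rings, `φ : A →+* B` a local homomorphism,
  `ρ : GaloisRepAdic A`.  Each of the first five predicates passes from `ρ` to
  `ρ.baseChangeAlong φ hφ`; `IsFlatAt p` passes along a SURJECTIVE `φ`
  (`isFlatAt_baseChangeAlong_of_surjective`: for `J ≤ B`, `I := J.comap φ`, the quotient
  `(B ⊗ V)/J(B ⊗ V)` is `V/IV` as an additive Galois set, same Hopf algebra).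
  Assembled: `so_baseChangeAlong`, `fl_baseChangeAlong`.
-/

set_option autoImplicit false
set_option linter.unusedSectionVars false
set_option linter.style.haveILetI false

noncomputable section

namespace Fermat.Agent.S56.Tan.BaseChange

open scoped TensorProduct
open Polynomial

local notation "Γ" => (AlgebraicClosure ℚ ≃ₐ[ℚ] AlgebraicClosure ℚ)

variable {A : Type} [CommRing A] [IsLocalRing A] {B : Type} [CommRing B] [IsLocalRing B]
variable (φ : A →+* B) (hφ : IsLocalHom φ) (ρ : GaloisRepAdic A)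

/-! ## Invariance under `IsEquiv` -/

section IsEquiv

open Fermat.Agent.S56.Tan.FlatMod

variable {ρ₁ ρ₂ : GaloisRepAdic A}

/-- the action of `ρ₂` is the conjugate of the action of `ρ₁` -/
theorem ρ_eq_conj (e : GaloisRepAdic.Equiv ρ₁ ρ₂) (σ : Γ) :
    ρ₂.ρ σ = e.toLinearEquiv.conj (ρ₁.ρ σ) := by
  ext y
  rw [LinearEquiv.conj_apply, LinearMap.comp_apply, LinearMap.comp_apply, LinearEquiv.coe_coe,
    LinearEquiv.coe_coe, e.map_apply, LinearEquiv.apply_symm_apply]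

theorem isUnramifiedAt_of_isEquiv {q : ℕ} (e : ρ₁.IsEquiv ρ₂) (h : ρ₁.IsUnramifiedAt q) :
    ρ₂.IsUnramifiedAt q := by
  obtain ⟨e⟩ := e
  intro P hP σ hσ
  rw [ρ_eq_conj e, h P hP σ hσ]
  ext y
  simp [LinearEquiv.conj_apply]

theorem det_eq_of_equiv (e : GaloisRepAdic.Equiv ρ₁ ρ₂) (σ : Γ) :
    LinearMap.det (ρ₂.ρ σ) = LinearMap.det (ρ₁.ρ σ) := by
  rw [ρ_eq_conj e, LinearEquiv.conj_apply]
  exact LinearMap.det_conj (ρ₁.ρ σ) e.toLinearEquiv

theorem detIsCyclotomic_of_isEquiv {p : ℕ} (e : ρ₁.IsEquiv ρ₂) (h : ρ₁.DetIsCyclotomic p) :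
    ρ₂.DetIsCyclotomic p := by
  obtain ⟨e⟩ := e
  refine ⟨h.1, fun n σ a ha => ?_⟩
  rw [det_eq_of_equiv e]
  exact h.2 n σ a ha

theorem charpoly_eq_of_equiv (e : GaloisRepAdic.Equiv ρ₁ ρ₂) (σ : Γ) :
    LinearMap.charpoly (ρ₂.ρ σ) = LinearMap.charpoly (ρ₁.ρ σ) := by
  rw [ρ_eq_conj e, LinearEquiv.charpoly_conj]

theorem isUnipotentOnInertiaAt_of_isEquiv {q : ℕ} (e : ρ₁.IsEquiv ρ₂)
    (h : ρ₁.IsUnipotentOnInertiaAt q) : ρ₂.IsUnipotentOnInertiaAt q := by
  obtain ⟨e⟩ := e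
  intro P hP σ hσ
  rw [charpoly_eq_of_equiv e]
  exact h P hP σ hσ

/-- the image of the line `A ∙ b 0` -/
theorem map_span_basis (e : GaloisRepAdic.Equiv ρ₁ ρ₂) (b : Module.Basis (Fin 2) A ρ₁.V) :
    (A ∙ b 0 : Submodule A ρ₁.V).map (e.toLinearEquiv : ρ₁.V →ₗ[A] ρ₂.V)
      = A ∙ (b.map e.toLinearEquiv) 0 := by
  rw [Submodule.map_span, Set.image_singleton, Module.Basis.map_apply]
  rfl

theorem isOrdinaryAt_of_isEquiv {p : ℕ} (e : ρ₁.IsEquiv ρ₂) (h : ρ₁.IsOrdinaryAt p) :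
    ρ₂.IsOrdinaryAt p := by
  obtain ⟨e⟩ := e
  intro P hP
  obtain ⟨L, ⟨b, rfl⟩, hD, hI⟩ := h P hP
  refine ⟨(A ∙ b 0 : Submodule A ρ₁.V).map (e.toLinearEquiv : ρ₁.V →ₗ[A] ρ₂.V),
    ⟨b.map e.toLinearEquiv, map_span_basis e b⟩, fun σ hσ w hw => ?_, fun σ hσ v => ?_⟩
  · obtain ⟨x, hx, rfl⟩ := Submodule.mem_map.mp hw
    rw [LinearEquiv.coe_coe, ← e.map_apply]
    exact Submodule.mem_map_of_mem (hD σ hσ x hx)
  · obtain ⟨x, rfl⟩ := e.toLinearEquiv.surjective v
    rw [← e.map_apply, ← map_sub]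
    exact Submodule.mem_map_of_mem (hI σ hσ x)

theorem isStrictOrdinaryAt_of_isEquiv {p : ℕ} (e : ρ₁.IsEquiv ρ₂)
    (h : ρ₁.IsStrictOrdinaryAt p) : ρ₂.IsStrictOrdinaryAt p := by
  obtain ⟨e⟩ := e
  refine ⟨h.1, fun P hP => ?_⟩
  obtain ⟨L, ⟨b, rfl⟩, hD, hI, hS⟩ := h.2 P hP
  refine ⟨(A ∙ b 0 : Submodule A ρ₁.V).map (e.toLinearEquiv : ρ₁.V →ₗ[A] ρ₂.V),
    ⟨b.map e.toLinearEquiv, map_span_basis e b⟩, fun σ hσ w hw => ?_, fun σ hσ v => ?_,
    fun σ hσ => ?_⟩
  · obtain ⟨x, hx, rfl⟩ := Submodule.mem_map.mp hw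
    rw [LinearEquiv.coe_coe, ← e.map_apply]
    exact Submodule.mem_map_of_mem (hD σ hσ x hx)
  · obtain ⟨x, rfl⟩ := e.toLinearEquiv.surjective v
    rw [← e.map_apply, ← map_sub]
    exact Submodule.mem_map_of_mem (hI σ hσ x)
  · obtain ⟨x, z, hx, hz, hxz⟩ := hS σ hσ
    refine ⟨x, z, fun w hw => ?_, fun v => ?_, hxz⟩
    · obtain ⟨y, hy, rfl⟩ := Submodule.mem_map.mp hw
      rw [LinearEquiv.coe_coe, ← e.map_apply, hx y hy, map_smul]
    · obtain ⟨y, rfl⟩ := e.toLinearEquiv.surjective v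
      rw [← e.map_apply, ← map_smul, ← map_sub]
      exact Submodule.mem_map_of_mem (hz y)

/-- the quotients `V/IV` of equivalent representations -/
def quotEquiv (e : GaloisRepAdic.Equiv ρ₁ ρ₂) (I : Ideal A) :
    (ρ₁.V ⧸ (I • (⊤ : Submodule A ρ₁.V))) ≃ₗ[A] (ρ₂.V ⧸ (I • (⊤ : Submodule A ρ₂.V))) :=
  Submodule.Quotient.equiv _ _ e.toLinearEquiv (by
    rw [Submodule.map_smul'', Submodule.map_top, LinearMap.range_eq_top.mpr
      e.toLinearEquiv.surjective])

theorem quotEquiv_mk (e : GaloisRepAdic.Equiv ρ₁ ρ₂) (I : Ideal A) (v : ρ₁.V) :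
    quotEquiv e I (Submodule.Quotient.mk v) = Submodule.Quotient.mk (e.toLinearEquiv v) := rfl

theorem quotEquiv_levelAction (e : GaloisRepAdic.Equiv ρ₁ ρ₂) (I : Ideal A) (σ : Γ)
    (x : ρ₁.V ⧸ (I • (⊤ : Submodule A ρ₁.V))) :
    quotEquiv e I (ρ₁.levelAction I σ x) = ρ₂.levelAction I σ (quotEquiv e I x) := by
  induction x using Submodule.Quotient.induction_on with
  | H v =>
    show quotEquiv e I (Submodule.Quotient.mk (ρ₁.ρ σ v))
      = ρ₂.levelAction I σ (Submodule.Quotient.mk (e.toLinearEquiv v))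
    rw [quotEquiv_mk, e.map_apply]
    rfl

theorem isFlatAt_of_isEquiv {p : ℕ} (e : ρ₁.IsEquiv ρ₂) (h : ρ₁.IsFlatAt p) :
    ρ₂.IsFlatAt p := by
  obtain ⟨e⟩ := e
  rw [isFlatAt_iff] at h ⊢
  refine ⟨h.1, fun I hI => ?_⟩
  exact (h.2 I hI).of_equiv (quotEquiv e I).toEquiv (fun x y => map_add (quotEquiv e I) x y)
    (fun σ x => quotEquiv_levelAction e I σ x)

/-- the strict-ordinary condition of S56 (with the unipotent part) is invariant under `IsEquiv` -/
theorem so_of_isEquiv (𝒪 : Type) [CommRing 𝒪] [Algebra 𝒪 A] {p : ℕ} {S Smin : Finset ℕ}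
    (e : ρ₁.IsEquiv ρ₂)
    (h : GaloisRep.strictOrdinaryCondition 𝒪 p S ρ₁ ∧
      ∀ q ∈ Smin, q.Prime → q ≠ p → ρ₁.IsUnipotentOnInertiaAt q) :
    GaloisRep.strictOrdinaryCondition 𝒪 p S ρ₂ ∧
      ∀ q ∈ Smin, q.Prime → q ≠ p → ρ₂.IsUnipotentOnInertiaAt q :=
  ⟨⟨detIsCyclotomic_of_isEquiv e h.1.1, isStrictOrdinaryAt_of_isEquiv e h.1.2.1,
    fun q hq hqS => isUnramifiedAt_of_isEquiv e (h.1.2.2 q hq hqS)⟩,
    fun q hq hqp hne => isUnipotentOnInertiaAt_of_isEquiv e (h.2 q hq hqp hne)⟩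

/-- the flat condition of S56 (with the unipotent part) is invariant under `IsEquiv` -/
theorem fl_of_isEquiv (𝒪 : Type) [CommRing 𝒪] [Algebra 𝒪 A] {p : ℕ} {S Smin : Finset ℕ}
    (e : ρ₁.IsEquiv ρ₂)
    (h : GaloisRep.flatCondition 𝒪 p S ρ₁ ∧
      ∀ q ∈ Smin, q.Prime → q ≠ p → ρ₁.IsUnipotentOnInertiaAt q) :
    GaloisRep.flatCondition 𝒪 p S ρ₂ ∧
      ∀ q ∈ Smin, q.Prime → q ≠ p → ρ₂.IsUnipotentOnInertiaAt q :=
  ⟨⟨detIsCyclotomic_of_isEquiv e h.1.1, isFlatAt_of_isEquiv e h.1.2.1,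
    fun q hq hqS => isUnramifiedAt_of_isEquiv e (h.1.2.2 q hq hqS)⟩,
    fun q hq hqp hne => isUnipotentOnInertiaAt_of_isEquiv e (h.2 q hq hqp hne)⟩

end IsEquiv

/-! ## Base change -/

/-- the action of the base change, on pure tensors -/
theorem baseChangeAlong_ρ_tmul (σ : Γ) (b : B) (v : ρ.V) :
    letI : Algebra A B := φ.toAlgebra
    (ρ.baseChangeAlong φ hφ).ρ σ (b ⊗ₜ[A] v) = b ⊗ₜ[A] ρ.ρ σ v := by
  letI : Algebra A B := φ.toAlgebra
  exact LinearMap.baseChange_tmul _ _ _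

theorem baseChangeAlong_ρ (σ : Γ) :
    letI : Algebra A B := φ.toAlgebra
    (ρ.baseChangeAlong φ hφ).ρ σ = (ρ.ρ σ).baseChange B := rfl

include hφ in
theorem map_mem_maximalIdeal {a : A} (ha : a ∈ IsLocalRing.maximalIdeal A) :
    φ a ∈ IsLocalRing.maximalIdeal B :=
  haveI := hφ
  map_nonunit φ a ha

/-! ### unramified -/

theorem isUnramifiedAt_baseChangeAlong {q : ℕ} (h : ρ.IsUnramifiedAt q) :
    (ρ.baseChangeAlong φ hφ).IsUnramifiedAt q := by
  letI : Algebra A B := φ.toAlgebra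
  intro P hP σ hσ
  have h1 : (ρ.baseChangeAlong φ hφ).ρ σ = (ρ.ρ σ).baseChange B := rfl
  rw [h1, h P hP σ hσ]
  exact LinearMap.baseChange_one A ρ.V

/-! ### determinant -/

theorem det_baseChangeAlong (σ : Γ) :
    LinearMap.det ((ρ.baseChangeAlong φ hφ).ρ σ) = φ (LinearMap.det (ρ.ρ σ)) := by
  letI : Algebra A B := φ.toAlgebra
  exact LinearMap.det_baseChange (ρ.ρ σ)

theorem map_mem_span_pow {x : A} {m : ℕ} (hx : x ∈ Ideal.span {((m : ℕ) : A)}) :
    φ x ∈ Ideal.span {((m : ℕ) : B)} := by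
  obtain ⟨c, rfl⟩ := Ideal.mem_span_singleton'.mp hx
  rw [map_mul, map_natCast]
  exact Ideal.mem_span_singleton'.mpr ⟨φ c, rfl⟩

theorem detIsCyclotomic_baseChangeAlong {p : ℕ} (h : ρ.DetIsCyclotomic p) :
    (ρ.baseChangeAlong φ hφ).DetIsCyclotomic p := by
  refine ⟨?_, fun n σ a ha => ?_⟩
  · have := map_mem_maximalIdeal φ hφ h.1
    rwa [map_natCast] at this
  · have h1 := map_mem_span_pow φ (h.2 n σ a ha)
    rw [map_sub, map_natCast] at h1
    rw [det_baseChangeAlong]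
    exact h1

/-! ### unipotent inertia -/

theorem charpoly_baseChangeAlong (σ : Γ) :
    LinearMap.charpoly ((ρ.baseChangeAlong φ hφ).ρ σ) = (LinearMap.charpoly (ρ.ρ σ)).map φ := by
  letI : Algebra A B := φ.toAlgebra
  exact LinearMap.charpoly_baseChange (ρ.ρ σ) B

theorem isUnipotentOnInertiaAt_baseChangeAlong {q : ℕ} (h : ρ.IsUnipotentOnInertiaAt q) :
    (ρ.baseChangeAlong φ hφ).IsUnipotentOnInertiaAt q := by
  intro P hP σ hσ
  rw [charpoly_baseChangeAlong, h P hP σ hσ]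
  simp

/-! ### the line of an ordinary representation, at the level of tensor products -/

section Line

variable {R S : Type} [CommRing R] [CommRing S] [Algebra R S] {V : Type} [AddCommGroup V]
  [Module R V] (b : Module.Basis (Fin 2) R V)

/-- the base change of the line `R ∙ b 0` -/
def tLine : Submodule S (S ⊗[R] V) := S ∙ (b.baseChange S 0)

theorem tmul_smul_eq (c : S) (a : R) (v : V) :
    (c ⊗ₜ[R] (a • v) : S ⊗[R] V) = (algebraMap R S a) • (c ⊗ₜ[R] v) := by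
  rw [TensorProduct.tmul_smul, TensorProduct.smul_tmul', TensorProduct.smul_tmul',
    Algebra.smul_def, smul_eq_mul]

theorem tmul_mem_tLine (c : S) {x : V} (hx : x ∈ (R ∙ b 0 : Submodule R V)) :
    (c ⊗ₜ[R] x : S ⊗[R] V) ∈ tLine (S := S) b := by
  obtain ⟨a, rfl⟩ := Submodule.mem_span_singleton.mp hx
  rw [tmul_smul_eq]
  refine Submodule.smul_mem _ _ ?_
  have h1 : (c ⊗ₜ[R] b 0 : S ⊗[R] V) = c • b.baseChange S 0 := by
    rw [Module.Basis.baseChange_apply, TensorProduct.smul_tmul', smul_eq_mul, mul_one]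
  rw [h1]
  exact Submodule.smul_mem _ _ (Submodule.mem_span_singleton_self _)

theorem exists_eq_tmul_of_mem_tLine {w : S ⊗[R] V} (hw : w ∈ tLine (S := S) b) :
    ∃ c : S, w = c ⊗ₜ[R] b 0 := by
  obtain ⟨c, rfl⟩ := Submodule.mem_span_singleton.mp hw
  refine ⟨c, ?_⟩
  rw [Module.Basis.baseChange_apply, TensorProduct.smul_tmul', smul_eq_mul, mul_one]

/-- stability of the line -/
theorem baseChange_mem_tLine (f : V →ₗ[R] V)
    (h : ∀ v ∈ (R ∙ b 0 : Submodule R V), f v ∈ (R ∙ b 0 : Submodule R V))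
    {w : S ⊗[R] V} (hw : w ∈ tLine (S := S) b) : f.baseChange S w ∈ tLine (S := S) b := by
  obtain ⟨c, rfl⟩ := exists_eq_tmul_of_mem_tLine b hw
  rw [LinearMap.baseChange_tmul]
  exact tmul_mem_tLine b c (h _ (Submodule.mem_span_singleton_self _))

/-- the action on the line -/
theorem baseChange_eq_smul_of_mem_tLine (f : V →ₗ[R] V) (x : R)
    (h : ∀ v ∈ (R ∙ b 0 : Submodule R V), f v = x • v)
    {w : S ⊗[R] V} (hw : w ∈ tLine (S := S) b) : f.baseChange S w = (algebraMap R S x) • w := by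
  obtain ⟨c, rfl⟩ := exists_eq_tmul_of_mem_tLine b hw
  rw [LinearMap.baseChange_tmul, h _ (Submodule.mem_span_singleton_self _), tmul_smul_eq]

/-- the action on the quotient by the line -/
theorem baseChange_sub_smul_mem_tLine (f : V →ₗ[R] V) (z : R)
    (h : ∀ v : V, f v - z • v ∈ (R ∙ b 0 : Submodule R V)) (v : S ⊗[R] V) :
    f.baseChange S v - (algebraMap R S z) • v ∈ tLine (S := S) b := by
  induction v using TensorProduct.induction_on with
  | zero =>
    rw [map_zero, smul_zero, sub_zero]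
    exact Submodule.zero_mem _
  | tmul c v =>
    have h1 : f.baseChange S (c ⊗ₜ[R] v) - (algebraMap R S z) • (c ⊗ₜ[R] v)
        = (c ⊗ₜ[R] (f v - z • v) : S ⊗[R] V) := by
      rw [TensorProduct.tmul_sub, tmul_smul_eq, LinearMap.baseChange_tmul]
    rw [h1]
    exact tmul_mem_tLine b c (h v)
  | add x y hx hy =>
    rw [map_add, smul_add, add_sub_add_comm]
    exact Submodule.add_mem _ hx hy

theorem baseChange_sub_mem_tLine (f : V →ₗ[R] V)
    (h : ∀ v : V, f v - v ∈ (R ∙ b 0 : Submodule R V)) (v : S ⊗[R] V) :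
    f.baseChange S v - v ∈ tLine (S := S) b := by
  have h1 := baseChange_sub_smul_mem_tLine (S := S) b f 1
    (fun v => by rw [one_smul]; exact h v) v
  rwa [map_one, one_smul] at h1

end Line

/-! ### ordinary and strictly ordinary -/

theorem isOrdinaryAt_baseChangeAlong {p : ℕ} (h : ρ.IsOrdinaryAt p) :
    (ρ.baseChangeAlong φ hφ).IsOrdinaryAt p := by
  letI : Algebra A B := φ.toAlgebra
  intro P hP
  obtain ⟨L, ⟨b, rfl⟩, hD, hI⟩ := h P hP
  exact ⟨tLine (S := B) b, ⟨b.baseChange B, rfl⟩,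
    fun σ hσ w hw => baseChange_mem_tLine b (ρ.ρ σ) (hD σ hσ) hw,
    fun σ hσ v => baseChange_sub_mem_tLine b (ρ.ρ σ) (hI σ hσ) v⟩

theorem isStrictOrdinaryAt_baseChangeAlong {p : ℕ} (h : ρ.IsStrictOrdinaryAt p) :
    (ρ.baseChangeAlong φ hφ).IsStrictOrdinaryAt p := by
  letI : Algebra A B := φ.toAlgebra
  refine ⟨?_, fun P hP => ?_⟩
  · have := map_mem_maximalIdeal φ hφ h.1
    rwa [map_natCast] at this
  obtain ⟨L, ⟨b, rfl⟩, hD, hI, hS⟩ := h.2 P hP
  refine ⟨tLine (S := B) b, ⟨b.baseChange B, rfl⟩,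
    fun σ hσ w hw => baseChange_mem_tLine b (ρ.ρ σ) (hD σ hσ) hw,
    fun σ hσ v => baseChange_sub_mem_tLine b (ρ.ρ σ) (hI σ hσ) v, fun σ hσ => ?_⟩
  obtain ⟨x, z, hx, hz, hxz⟩ := hS σ hσ
  refine ⟨φ x, φ z, fun w hw => baseChange_eq_smul_of_mem_tLine b (ρ.ρ σ) x hx hw,
    fun v => baseChange_sub_smul_mem_tLine b (ρ.ρ σ) z hz v, fun n a ha => ?_⟩
  have h1 := map_mem_span_pow φ (hxz n a ha)
  rwa [map_sub, map_mul, map_natCast] at h1

/-! ### the conditions of S56 without the flat part -/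

theorem strictOrdinaryCondition_baseChangeAlong (𝒪 : Type) [CommRing 𝒪] [Algebra 𝒪 A]
    [Algebra 𝒪 B] {p : ℕ} {S : Finset ℕ} (h : GaloisRep.strictOrdinaryCondition 𝒪 p S ρ) :
    GaloisRep.strictOrdinaryCondition 𝒪 p S (ρ.baseChangeAlong φ hφ) :=
  ⟨detIsCyclotomic_baseChangeAlong φ hφ ρ h.1, isStrictOrdinaryAt_baseChangeAlong φ hφ ρ h.2.1,
    fun q hq hqS => isUnramifiedAt_baseChangeAlong φ hφ ρ (h.2.2 q hq hqS)⟩

theorem ordinaryCondition_baseChangeAlong (𝒪 : Type) [CommRing 𝒪] [Algebra 𝒪 A]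
    [Algebra 𝒪 B] {p : ℕ} {S : Finset ℕ} (h : GaloisRep.ordinaryCondition 𝒪 p S ρ) :
    GaloisRep.ordinaryCondition 𝒪 p S (ρ.baseChangeAlong φ hφ) :=
  ⟨detIsCyclotomic_baseChangeAlong φ hφ ρ h.1, isOrdinaryAt_baseChangeAlong φ hφ ρ h.2.1,
    fun q hq hqS => isUnramifiedAt_baseChangeAlong φ hφ ρ (h.2.2 q hq hqS)⟩

/-- the unipotent part of the minimal conditions -/
theorem unipotent_baseChangeAlong {p : ℕ} {Smin : Finset ℕ}
    (h : ∀ q ∈ Smin, q.Prime → q ≠ p → ρ.IsUnipotentOnInertiaAt q) :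
    ∀ q ∈ Smin, q.Prime → q ≠ p → (ρ.baseChangeAlong φ hφ).IsUnipotentOnInertiaAt q :=
  fun q hq hqp hne => isUnipotentOnInertiaAt_baseChangeAlong φ hφ ρ (h q hq hqp hne)

/-! ### flat: base change along a surjective homomorphism -/

section FlatSurj

open Fermat.Agent.S56.Tan.FlatMod

variable {R S : Type} [CommRing R] [CommRing S] [Algebra R S] {V : Type} [AddCommGroup V]
  [Module R V]

/-- membership in `I • ⊤` by coordinates -/
theorem mem_smul_top_iff_repr (b : Module.Basis (Fin 2) R V) (I : Ideal R) (x : V) :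
    x ∈ I • (⊤ : Submodule R V) ↔ ∀ i, b.repr x i ∈ I := by
  constructor
  · intro hx
    refine Submodule.smul_induction_on hx (fun a ha v _ i => ?_) (fun x y hx hy i => ?_)
    · rw [map_smul, Finsupp.smul_apply, smul_eq_mul]
      exact I.mul_mem_right _ ha
    · rw [map_add, Finsupp.add_apply]
      exact I.add_mem (hx i) (hy i)
  · intro h
    rw [← b.sum_repr x]
    exact Submodule.sum_mem _ fun i _ => Submodule.smul_mem_smul (h i) Submodule.mem_top

/-- the action on `M / J M` induced by an endomorphism (the Prelude's `levelAction`, generic) -/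
def levelAct {M : Type} [AddCommGroup M] [Module S M] (g : M →ₗ[S] M) (J : Ideal S) :
    (M ⧸ (J • (⊤ : Submodule S M))) →ₗ[S] (M ⧸ (J • (⊤ : Submodule S M))) :=
  Submodule.mapQ _ _ g (by
    rw [← Submodule.map_le_iff_le_comap, Submodule.map_smul'']
    exact Submodule.smul_mono le_rfl le_top)

variable (R V) in
/-- `v ↦ [1 ⊗ v]`, as an additive map `V → (S ⊗ V)/J(S ⊗ V)` -/
def toQuot (J : Ideal S) : V →+ (S ⊗[R] V) ⧸ (J • (⊤ : Submodule S (S ⊗[R] V))) :=
  ((J • (⊤ : Submodule S (S ⊗[R] V))).mkQ : (S ⊗[R] V) →+ _).comp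
    ((TensorProduct.mk R S V 1 : V →ₗ[R] S ⊗[R] V) : V →+ S ⊗[R] V)

theorem toQuot_apply (J : Ideal S) (v : V) :
    toQuot R V J v = Submodule.Quotient.mk ((1 : S) ⊗ₜ[R] v) := rfl

theorem toQuot_eq_zero_iff (b : Module.Basis (Fin 2) R V) (J : Ideal S) (v : V) :
    toQuot R V J v = 0 ↔ v ∈ (J.comap (algebraMap R S)) • (⊤ : Submodule R V) := by
  rw [toQuot_apply, Submodule.Quotient.mk_eq_zero, mem_smul_top_iff_repr (b.baseChange S),
    mem_smul_top_iff_repr b]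
  refine forall_congr' fun i => ?_
  rw [Module.Basis.baseChange_repr_tmul, Algebra.smul_def, mul_one, Ideal.mem_comap]

/-- `[v] ↦ [1 ⊗ v]`, `V/IV → (S ⊗ V)/J(S ⊗ V)` for `I = J.comap (algebraMap R S)` -/
def quotMap (b : Module.Basis (Fin 2) R V) (J : Ideal S) :
    (V ⧸ ((J.comap (algebraMap R S)) • (⊤ : Submodule R V))) →+
      (S ⊗[R] V) ⧸ (J • (⊤ : Submodule S (S ⊗[R] V))) :=
  QuotientAddGroup.lift _ (toQuot R V J) fun v hv =>
    (toQuot_eq_zero_iff b J v).mpr hv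

theorem quotMap_mk (b : Module.Basis (Fin 2) R V) (J : Ideal S) (v : V) :
    quotMap b J (Submodule.Quotient.mk v) = Submodule.Quotient.mk ((1 : S) ⊗ₜ[R] v) := rfl

theorem quotMap_injective (b : Module.Basis (Fin 2) R V) (J : Ideal S) :
    Function.Injective (quotMap b J) := by
  rw [injective_iff_map_eq_zero]
  intro x hx
  induction x using Submodule.Quotient.induction_on with
  | H v =>
    rw [quotMap_mk, ← toQuot_apply, toQuot_eq_zero_iff b] at hx
    exact (Submodule.Quotient.mk_eq_zero _).mpr hx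

theorem quotMap_surjective (hs : Function.Surjective (algebraMap R S))
    (b : Module.Basis (Fin 2) R V) (J : Ideal S) : Function.Surjective (quotMap b J) := by
  intro y
  induction y using Submodule.Quotient.induction_on with
  | H x =>
    have hx : ∃ v : V, x = (1 : S) ⊗ₜ[R] v := by
      induction x using TensorProduct.induction_on with
      | zero => exact ⟨0, (TensorProduct.tmul_zero _ _).symm⟩
      | tmul s v =>
        obtain ⟨a, rfl⟩ := hs s
        refine ⟨a • v, ?_⟩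
        rw [tmul_smul_eq, TensorProduct.smul_tmul', smul_eq_mul, mul_one]
      | add x y hx hy =>
        obtain ⟨v, rfl⟩ := hx
        obtain ⟨w, rfl⟩ := hy
        exact ⟨v + w, (TensorProduct.tmul_add _ _ _).symm⟩
    obtain ⟨v, rfl⟩ := hx
    exact ⟨Submodule.Quotient.mk v, quotMap_mk b J v⟩

theorem quotMap_levelAct (b : Module.Basis (Fin 2) R V) (J : Ideal S) (f : V →ₗ[R] V)
    (x : V ⧸ ((J.comap (algebraMap R S)) • (⊤ : Submodule R V))) :
    quotMap b J (levelAct f (J.comap (algebraMap R S)) x)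
      = levelAct (f.baseChange S) J (quotMap b J x) := by
  induction x using Submodule.Quotient.induction_on with
  | H v =>
    show quotMap b J (Submodule.Quotient.mk (f v))
      = levelAct (f.baseChange S) J (Submodule.Quotient.mk ((1 : S) ⊗ₜ[R] v))
    rw [quotMap_mk]
    show _ = Submodule.Quotient.mk (f.baseChange S ((1 : S) ⊗ₜ[R] v))
    rw [LinearMap.baseChange_tmul]

/-- **the quotients of a surjective base change**: `(S ⊗ V)/J(S ⊗ V)` is flat if `V/IV` is -/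
theorem isFlatMod_quot_baseChange {p : ℕ} (hs : Function.Surjective (algebraMap R S))
    (b : Module.Basis (Fin 2) R V) (J : Ideal S) (f : Γ → (V →ₗ[R] V))
    (h : IsFlatMod p (V ⧸ ((J.comap (algebraMap R S)) • (⊤ : Submodule R V)))
      (fun σ => levelAct (f σ) (J.comap (algebraMap R S)))) :
    IsFlatMod p ((S ⊗[R] V) ⧸ (J • (⊤ : Submodule S (S ⊗[R] V))))
      (fun σ => levelAct ((f σ).baseChange S) J) :=
  h.of_equiv (Equiv.ofBijective (quotMap b J) ⟨quotMap_injective b J, quotMap_surjective hs b J⟩)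
    (fun x y => map_add (quotMap b J) x y) (fun σ x => quotMap_levelAct b J (f σ) x)

end FlatSurj

theorem isFlatAt_baseChangeAlong_of_surjective (hs : Function.Surjective φ) {p : ℕ}
    (h : ρ.IsFlatAt p) : (ρ.baseChangeAlong φ hφ).IsFlatAt p := by
  letI : Algebra A B := φ.toAlgebra
  have b : Module.Basis (Fin 2) A ρ.V := Module.finBasisOfFinrankEq A ρ.V ρ.finrank_eq
  rw [Fermat.Agent.S56.Tan.FlatMod.isFlatAt_iff] at h ⊢
  refine ⟨?_, fun J hJ => ?_⟩
  · haveI := h.1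
    haveI := hφ
    refine Finite.of_surjective (IsLocalRing.ResidueField.map φ) fun y => ?_
    obtain ⟨b', rfl⟩ := IsLocalRing.residue_surjective y
    obtain ⟨a, rfl⟩ := hs b'
    exact ⟨IsLocalRing.residue A a, IsLocalRing.ResidueField.map_residue φ a⟩
  · have hI : Finite (A ⧸ J.comap φ) :=
      Finite.of_injective _ (Ideal.quotientMap_injective (I := J) (f := φ))
    exact isFlatMod_quot_baseChange hs b J (fun σ => ρ.ρ σ) (h.2 (J.comap φ) hI)

/-- the flat condition of S56 (with the unipotent part) along a surjective local homomorphism -/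
theorem fl_baseChangeAlong (𝒪 : Type) [CommRing 𝒪] [Algebra 𝒪 A] [Algebra 𝒪 B]
    (hs : Function.Surjective φ) {p : ℕ} {S Smin : Finset ℕ}
    (h : GaloisRep.flatCondition 𝒪 p S ρ ∧
      ∀ q ∈ Smin, q.Prime → q ≠ p → ρ.IsUnipotentOnInertiaAt q) :
    GaloisRep.flatCondition 𝒪 p S (ρ.baseChangeAlong φ hφ) ∧
      ∀ q ∈ Smin, q.Prime → q ≠ p → (ρ.baseChangeAlong φ hφ).IsUnipotentOnInertiaAt q :=
  ⟨⟨detIsCyclotomic_baseChangeAlong φ hφ ρ h.1.1,
    isFlatAt_baseChangeAlong_of_surjective φ hφ ρ hs h.1.2.1,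
    fun q hq hqS => isUnramifiedAt_baseChangeAlong φ hφ ρ (h.1.2.2 q hq hqS)⟩,
    unipotent_baseChangeAlong φ hφ ρ h.2⟩

/-- the strict-ordinary condition of S56 (with the unipotent part) along any local homomorphism -/
theorem so_baseChangeAlong (𝒪 : Type) [CommRing 𝒪] [Algebra 𝒪 A] [Algebra 𝒪 B]
    {p : ℕ} {S Smin : Finset ℕ}
    (h : GaloisRep.strictOrdinaryCondition 𝒪 p S ρ ∧
      ∀ q ∈ Smin, q.Prime → q ≠ p → ρ.IsUnipotentOnInertiaAt q) :
    GaloisRep.strictOrdinaryCondition 𝒪 p S (ρ.baseChangeAlong φ hφ) ∧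
      ∀ q ∈ Smin, q.Prime → q ≠ p → (ρ.baseChangeAlong φ hφ).IsUnipotentOnInertiaAt q :=
  ⟨strictOrdinaryCondition_baseChangeAlong φ hφ ρ 𝒪 h.1, unipotent_baseChangeAlong φ hφ ρ h.2⟩

end Fermat.Agent.S56.Tan.BaseChange
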