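import Mathlib
import Fermat.Agent.S56.Main.Unpack
import Fermat.Agent.S56.Tan.BaseChange
import Fermat.Agent.S56.Tan.Main

/-!
# S56 (a6), final form of the seam: the two halves

For `DQ : DeformationRingData 𝒪 ρbar (soCond 𝒪 p Smin Q)` resp. `(flCond 𝒪 p Smin Q)`:
if `#Sel(Smin ∪ Q, LcFam rbar p Smin (Pso p resp. Pfl p), M) ≤ (#k) ^ r` then `DQ.R` is a
quotient of `𝒪⟦X₁,…,X_r⟧`.  (`hD` is the definition of the condition, `hDeq` and `hbc` are
helper22's `Tan/BaseChange`.)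
-/

set_option autoImplicit false
set_option linter.unusedSectionVars false

noncomputable section

namespace Fermat.Agent.S56.Tan.Final

open IsLocalRing
open Fermat.Agent.CFT.Bridge
open Fermat.Agent.S56.Coh Fermat.Agent.S56.Coh.CocDefs
open Fermat.Agent.S53.Dictionary hiding GQ
open Fermat.Agent.S53.TangentBound
open Fermat.Agent.S56.Tan.Universal Fermat.Agent.S56.Tan.Cocycle Fermat.Agent.S56.Tan.Main
open Fermat.Agent.S56.Tan.BaseChange Fermat.Agent.S56.Main.Unpack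

variable {𝒪 : Type} [CommRing 𝒪] [IsDomain 𝒪] [IsDiscreteValuationRing 𝒪]
  [IsAdicComplete (maximalIdeal 𝒪) 𝒪] [Finite (ResidueField 𝒪)]
  {ρbar : ResidualGaloisRep (ResidueField 𝒪)}
  (rbar : GQ →* GL (Fin 2) (ResidueField 𝒪))
  (hrbar : GaloisFactorsThroughFiniteLevel (rbarM rbar))
  (e0 : ρbar.IsEquiv (resOfMat (rbarM rbar) hrbar))
  (p : ℕ) [Fact p.Prime] (Smin Q : Finset ℕ)

attribute [local instance] algDual

include e0 in
/-- **[a6], strict-ordinary half** -/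
theorem exists_surjective_so [Finite (SelT rbar p Smin Q (Pso p))] {r : ℕ}
    (hcard : Nat.card (SelT rbar p Smin Q (Pso p)) ≤ Nat.card (ResidueField 𝒪) ^ r)
    (DQ : GaloisRep.DeformationRingData 𝒪 ρbar (soCond 𝒪 p Smin Q)) :
    ∃ γ : MvPowerSeries (Fin r) 𝒪 →ₐ[𝒪] DQ.R, Function.Surjective γ := by
  refine exists_surjective_of_card_sel_le DQ rbar hrbar e0 p Smin Q (Pso p) ?_ ?_ ?_ hcard
  · intro ρA h
    exact ⟨h.1.1, ⟨h.1.1, h.1.2.1⟩, fun q hq hqp hne => ⟨h.1.1, h.2 q hq hqp hne⟩, h.1.2.2⟩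
  · intro ρ ρ' e h
    exact so_of_isEquiv 𝒪 e h
  · intro φ _
    exact so_baseChangeAlong _ _ DQ.ρ 𝒪 DQ.isOfType

include e0 in
/-- **[a6], flat half** -/
theorem exists_surjective_fl [Finite (SelT rbar p Smin Q (Pfl p))] {r : ℕ}
    (hcard : Nat.card (SelT rbar p Smin Q (Pfl p)) ≤ Nat.card (ResidueField 𝒪) ^ r)
    (DQ : GaloisRep.DeformationRingData 𝒪 ρbar (flCond 𝒪 p Smin Q)) :
    ∃ γ : MvPowerSeries (Fin r) 𝒪 →ₐ[𝒪] DQ.R, Function.Surjective γ := by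
  refine exists_surjective_of_card_sel_le DQ rbar hrbar e0 p Smin Q (Pfl p) ?_ ?_ ?_ hcard
  · intro ρA h
    exact ⟨h.1.1, ⟨h.1.1, h.1.2.1⟩, fun q hq hqp hne => ⟨h.1.1, h.2 q hq hqp hne⟩, h.1.2.2⟩
  · intro ρ ρ' e h
    exact fl_of_isEquiv 𝒪 e h
  · intro φ hφ
    exact fl_baseChangeAlong _ _ DQ.ρ 𝒪 hφ DQ.isOfType

/-- a matrix form of `ρbar` in a basis (for the integrator): ONE `rbar` for all blocks -/
theorem exists_rbar (ρbar : ResidualGaloisRep (ResidueField 𝒪)) :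
    ∃ (b : Module.Basis (Fin 2) (ResidueField 𝒪) ρbar.V)
      (rbar : GQ →* GL (Fin 2) (ResidueField 𝒪))
      (hrbar : GaloisFactorsThroughFiniteLevel (rbarM rbar)),
      (∀ g, (rbar g : Matrix (Fin 2) (Fin 2) (ResidueField 𝒪)) =
        LinearMap.toMatrix b b (ρbar.ρ g)) ∧
      ρbar.IsEquiv (resOfMat (rbarM rbar) hrbar) := by
  let b := resSomeBasis ρbar
  let r0 := resMatOf ρbar b
  have h0 : GaloisFactorsThroughFiniteLevel r0 := factors_resMatOf ρbar b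
  have hr : rbarM r0.toHomUnits = r0 := by
    ext σ : 1
    rfl
  refine ⟨b, r0.toHomUnits, hr ▸ h0, fun g => ?_, ⟨resEquivOfMatMatOf ρbar b⟩⟩
  show r0 g = _
  exact resMatOf_apply ρbar b g

end Fermat.Agent.S56.Tan.Final
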