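/-
# Reduction of a matrix lift over the dual numbers

A continuous `r : GQ →* M₂(k[ε])` whose `ε⁰`-part is `rb : GQ →* M₂(k)` reduces, along
`fst : k[ε] → k`, to `ofMat rb`.  Hence every local property of `ofMat r` that is stable under
equivalence and surjective local base change holds for `ofMat rb`: *the residual representation
has the type of any of its lifts to `k[ε]`* (no deformation ring needed).
-/
import Mathlib
import Fermat.Agent.S53.Dictionary
import Fermat.Agent.S53.TangentBound
import Fermat.Agent.S56.Tan.BaseChange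

set_option autoImplicit false

namespace Fermat.Agent.S56.Tan.MatRed

open IsLocalRing
open Fermat.Agent.S53.Dictionary
open Fermat.Agent.S53.TangentBound
open Fermat.Agent.S56.Tan.BaseChange

variable {k : Type} [Field k]

/-- the first projection of the dual numbers is a local homomorphism -/
theorem isLocalHom_fstHom : IsLocalHom (fstHom k) := by
  refine ⟨fun a ha => ?_⟩
  by_contra hna
  have hmem : a ∈ maximalIdeal (DualNumber k) := (mem_maximalIdeal (R := DualNumber k) a).2 hna
  rw [Fermat.Agent.S53.TangentBound.mem_maximalIdeal_iff] at hmem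
  rw [fstHom_apply, hmem] at ha
  exact not_isUnit_zero ha

variable (r : GQ →* Mat (DualNumber k)) (hr : IsContMat (DualNumber k) r) (rb : GQ →* Mat k)
  (h : ∀ σ, mfst (r σ) = rb σ)

include h in
theorem mapMat_fstHom : mapMat (fstHom k) r = rb := by
  ext σ i j
  have := congrArg (fun X => X i j) (h σ)
  exact this

include hr h in
/-- the `ε⁰`-part of a continuous matrix lift is continuous -/
theorem isContMat_of_mfst : IsContMat k rb := by
  rw [← mapMat_fstHom r rb h]
  exact isContMat_mapMat (fstHom k) isLocalHom_fstHom r hr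

/-- **Reduction.** The base change of `ofMat r` along `fst : k[ε] → k` is `ofMat rb`. -/
theorem isEquiv_baseChangeAlong_fstHom :
    ((ofMat r hr).baseChangeAlong (fstHom k) isLocalHom_fstHom).IsEquiv
      (ofMat rb (isContMat_of_mfst r hr rb h)) := by
  have h1 := baseChangeAlong_ofMat (fstHom k) isLocalHom_fstHom r hr
  have h2 : (ofMat (mapMat (fstHom k) r) (isContMat_mapMat (fstHom k) isLocalHom_fstHom r hr)).IsEquiv
      (ofMat rb (isContMat_of_mfst r hr rb h)) :=
    ofMat_congr _ _ (mapMat_fstHom r rb h)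
  exact isEquiv_trans h1 h2

/-- **Transfer principle** for lifts to the dual numbers. -/
theorem prop_of_lift
    (P : ∀ {A : Type} [CommRing A] [IsLocalRing A], GaloisRepAdic A → Prop)
    (hbc : ∀ {A B : Type} [CommRing A] [IsLocalRing A] [CommRing B] [IsLocalRing B]
      (φ : A →+* B) (hφ : IsLocalHom φ) (ρ : GaloisRepAdic A), Function.Surjective φ →
        P ρ → P (ρ.baseChangeAlong φ hφ))
    (heq : ∀ {A : Type} [CommRing A] [IsLocalRing A] {ρ₁ ρ₂ : GaloisRepAdic A},
      ρ₁.IsEquiv ρ₂ → P ρ₁ → P ρ₂)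
    (hP : P (ofMat r hr)) : P (ofMat rb (isContMat_of_mfst r hr rb h)) :=
  heq (isEquiv_baseChangeAlong_fstHom r hr rb h)
    (hbc (fstHom k) isLocalHom_fstHom _ (fstHom_surjective k) hP)

theorem detIsCyclotomic_of_lift {p : ℕ} (hP : (ofMat r hr).DetIsCyclotomic p) :
    (ofMat rb (isContMat_of_mfst r hr rb h)).DetIsCyclotomic p :=
  detIsCyclotomic_of_isEquiv (isEquiv_baseChangeAlong_fstHom r hr rb h)
    (detIsCyclotomic_baseChangeAlong _ _ _ hP)

theorem isUnramifiedAt_of_lift {q : ℕ} (hP : (ofMat r hr).IsUnramifiedAt q) :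
    (ofMat rb (isContMat_of_mfst r hr rb h)).IsUnramifiedAt q :=
  isUnramifiedAt_of_isEquiv (isEquiv_baseChangeAlong_fstHom r hr rb h)
    (isUnramifiedAt_baseChangeAlong _ _ _ hP)

theorem isUnipotentOnInertiaAt_of_lift {q : ℕ} (hP : (ofMat r hr).IsUnipotentOnInertiaAt q) :
    (ofMat rb (isContMat_of_mfst r hr rb h)).IsUnipotentOnInertiaAt q :=
  isUnipotentOnInertiaAt_of_isEquiv (isEquiv_baseChangeAlong_fstHom r hr rb h)
    (isUnipotentOnInertiaAt_baseChangeAlong _ _ _ hP)

theorem isOrdinaryAt_of_lift {p : ℕ} (hP : (ofMat r hr).IsOrdinaryAt p) :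
    (ofMat rb (isContMat_of_mfst r hr rb h)).IsOrdinaryAt p :=
  isOrdinaryAt_of_isEquiv (isEquiv_baseChangeAlong_fstHom r hr rb h)
    (isOrdinaryAt_baseChangeAlong _ _ _ hP)

theorem isStrictOrdinaryAt_of_lift {p : ℕ} (hP : (ofMat r hr).IsStrictOrdinaryAt p) :
    (ofMat rb (isContMat_of_mfst r hr rb h)).IsStrictOrdinaryAt p :=
  isStrictOrdinaryAt_of_isEquiv (isEquiv_baseChangeAlong_fstHom r hr rb h)
    (isStrictOrdinaryAt_baseChangeAlong _ _ _ hP)

theorem isFlatAt_of_lift {p : ℕ} (hP : (ofMat r hr).IsFlatAt p) :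
    (ofMat rb (isContMat_of_mfst r hr rb h)).IsFlatAt p :=
  isFlatAt_of_isEquiv (isEquiv_baseChangeAlong_fstHom r hr rb h)
    (isFlatAt_baseChangeAlong_of_surjective _ _ _ (fstHom_surjective k) hP)

end Fermat.Agent.S56.Tan.MatRed
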