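/-
# The residual representation inherits the type of a universal deformation

Inside `∀ DQ : DeformationRingData 𝒪 ρbar 𝒟` the residual representation `ρbar` itself (viewed as
an adic representation over the residue field `k = ResidueField 𝒪`) has every local property that
is stable under equivalence and under base change along surjective local homomorphisms: it is
equivalent to the base change of the universal deformation `DQ.ρ` along
`π : DQ.R → ResidueField DQ.R ≃ ResidueField 𝒪`.

Main results:

* `exists_isEquiv_baseChangeAlong_ofResidual` : the engine, for any lift `ρ` over a local ring `R`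
  whose residue field is identified with `k` through a bijective `κ`;
* `DeformationRingData.exists_isEquiv_ofResidual` : the same for `DQ`;
* `so_ofResidual`, `fl_ofResidual` : the two conditions of S56 hold for `ρbar`.
-/
import Mathlib
import Fermat.Prelude.Def_GaloisRep_DeformationRingData
import Fermat.Agent.S53.MatrixLift
import Fermat.Agent.S56.Tan.BaseChange

set_option autoImplicit false

namespace Fermat.Agent.S56.Tan.Residual

open IsLocalRing
open Fermat.Agent.S53.MatrixLift
open Fermat.Agent.S56.Tan.BaseChange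

section Engine

variable {k : Type} [Field k] {R : Type} [CommRing R] [IsLocalRing R]

/-- the residue map followed by the inverse of a bijective identification of residue fields -/
noncomputable def resTo (κ : k →+* ResidueField R) (hκ : Function.Bijective κ) : R →+* k :=
  ((RingEquiv.ofBijective κ hκ).symm : ResidueField R →+* k).comp (residue R)

theorem resTo_apply (κ : k →+* ResidueField R) (hκ : Function.Bijective κ) (a : R) :
    κ (resTo κ hκ a) = residue R a :=
  (RingEquiv.ofBijective κ hκ).apply_symm_apply (residue R a)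

theorem resTo_surjective (κ : k →+* ResidueField R) (hκ : Function.Bijective κ) :
    Function.Surjective (resTo κ hκ) := fun x => by
  obtain ⟨a, ha⟩ := residue_surjective (κ x)
  refine ⟨a, hκ.1 ?_⟩
  rw [resTo_apply, ha]

theorem isLocalHom_resTo (κ : k →+* ResidueField R) (hκ : Function.Bijective κ) :
    IsLocalHom (resTo κ hκ) := by
  refine ⟨fun a ha => ?_⟩
  have h1 : IsUnit (κ (resTo κ hκ a)) := ha.map κ
  rw [resTo_apply] at h1
  exact isUnit_of_map_unit (residue R) a h1

omit [IsLocalRing R] in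
theorem mapHom_comp {Γ : Type} [Monoid Γ] {B C : Type} [CommRing B] [CommRing C] (f : R →+* B)
    (g : B →+* C) (r : Γ →* M2 R) : mapHom (g.comp f) r = mapHom g (mapHom f r) := by
  ext σ i j
  rfl

theorem mapHom_resTo (κ : k →+* ResidueField R) (hκ : Function.Bijective κ) (r : Gal →* M2 R)
    (r0 : Gal →* M2 k) (h : mapHom (residue R) r = mapHom κ r0) :
    mapHom (resTo κ hκ) r = r0 := by
  ext σ i j
  apply hκ.1
  rw [mapHom_apply_apply, resTo_apply]
  have := congrArg (fun f => f σ i j) h
  exact this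

/-- **Engine.** A lift `ρ` of `ρbar` over a local ring `R` whose residue field is identified with
`k` reduces, along `R → k`, to a representation equivalent to `ρbar`. -/
theorem exists_isEquiv_baseChangeAlong_ofResidual (ρ : GaloisRepAdic R)
    (ρbar : ResidualGaloisRep k) (κ : k →+* ResidueField R) (hκ : Function.Bijective κ)
    (h : ρ.residual.IsEquiv (ρbar.baseChangeAlong κ)) :
    (ρ.baseChangeAlong (resTo κ hκ) (isLocalHom_resTo κ hκ)).IsEquiv
      (GaloisRepAdic.ofResidualGaloisRep ρbar) := by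
  have bbar : Module.Basis (Fin 2) k ρbar.V :=
    Module.finBasisOfFinrankEq k ρbar.V ρbar.finrank_eq
  obtain ⟨r, hr, ⟨e⟩, hred⟩ := exists_lift_of_residual_isEquiv ρ ρbar bbar κ h
  have hπ := isLocalHom_resTo κ hκ
  have hmap : mapHom (resTo κ hκ) r = matHom bbar ρbar.ρ := mapHom_resTo κ hκ r _ hred
  -- `ρ_π ≃ (ofMatrix r)_π ≃ ofMatrix (π r) = ofMatrix (matrices of ρbar) ≃ ρbar`
  have e1 : GaloisRepAdic.Equiv (ρ.baseChangeAlong (resTo κ hκ) hπ)
      ((ofMatrix r hr).baseChangeAlong (resTo κ hκ) hπ) := e.baseChangeAlong _ hπ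
  have e2 := equivBaseChangeOfMatrix r hr (resTo κ hκ) hπ
  have e3 : GaloisRepAdic.Equiv (ofMatrix (mapHom (resTo κ hκ) r) (hr.map _ hπ))
      (ofMatrix (matHom bbar (GaloisRepAdic.ofResidualGaloisRep ρbar).ρ)
        (isAdicCts_matHom (GaloisRepAdic.ofResidualGaloisRep ρbar) bbar)) :=
    ofMatrixCongr hmap _ _
  have e4 := (equivOfMatrix (GaloisRepAdic.ofResidualGaloisRep ρbar) bbar).symm
  exact ⟨(e1.trans e2).trans (e3.trans e4)⟩

end Engine

section Deformation

variable {𝒪 : Type} [CommRing 𝒪] [IsDomain 𝒪] [IsDiscreteValuationRing 𝒪]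
  [IsAdicComplete (maximalIdeal 𝒪) 𝒪]
variable {ρbar : ResidualGaloisRep (ResidueField 𝒪)}
variable {𝒟 : ∀ ⦃A : Type⦄ [CommRing A] [IsLocalRing A] [Algebra 𝒪 A], GaloisRepAdic A → Prop}

/-- the identification of the residue fields of `𝒪` and of a deformation ring is bijective -/
theorem residueMap_bijective (DQ : GaloisRep.DeformationRingData 𝒪 ρbar 𝒟) :
    Function.Bijective (ResidueField.map (algebraMap 𝒪 DQ.R)) := by
  refine ⟨(ResidueField.map (algebraMap 𝒪 DQ.R)).injective, fun y => ?_⟩
  obtain ⟨x, hx⟩ := DQ.residue_surjective y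
  exact ⟨residue 𝒪 x, by rw [ResidueField.map_residue]; exact hx⟩

/-- the reduction `DQ.R → ResidueField 𝒪` -/
noncomputable def redMap (DQ : GaloisRep.DeformationRingData 𝒪 ρbar 𝒟) :
    DQ.R →+* ResidueField 𝒪 :=
  resTo (ResidueField.map (algebraMap 𝒪 DQ.R)) (residueMap_bijective DQ)

theorem isLocalHom_redMap (DQ : GaloisRep.DeformationRingData 𝒪 ρbar 𝒟) :
    IsLocalHom (redMap DQ) :=
  isLocalHom_resTo _ _

theorem redMap_surjective (DQ : GaloisRep.DeformationRingData 𝒪 ρbar 𝒟) :
    Function.Surjective (redMap DQ) :=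
  resTo_surjective _ _

theorem redMap_algebraMap (DQ : GaloisRep.DeformationRingData 𝒪 ρbar 𝒟) (x : 𝒪) :
    redMap DQ (algebraMap 𝒪 DQ.R x) = residue 𝒪 x := by
  apply (residueMap_bijective DQ).1
  rw [redMap, resTo_apply, ResidueField.map_residue]

/-- **The universal deformation reduces to `ρbar`.** -/
theorem isEquiv_baseChangeAlong_redMap (DQ : GaloisRep.DeformationRingData 𝒪 ρbar 𝒟) :
    (DQ.ρ.baseChangeAlong (redMap DQ) (isLocalHom_redMap DQ)).IsEquiv
      (GaloisRepAdic.ofResidualGaloisRep ρbar) :=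
  exists_isEquiv_baseChangeAlong_ofResidual DQ.ρ ρbar _ (residueMap_bijective DQ)
    DQ.residual_isEquiv

/-- Existential packaging of the reduction. -/
theorem exists_isEquiv_ofResidual (DQ : GaloisRep.DeformationRingData 𝒪 ρbar 𝒟) :
    ∃ (π : DQ.R →+* ResidueField 𝒪) (hπ : IsLocalHom π), Function.Surjective π ∧
      (∀ x : 𝒪, π (algebraMap 𝒪 DQ.R x) = residue 𝒪 x) ∧
      (DQ.ρ.baseChangeAlong π hπ).IsEquiv (GaloisRepAdic.ofResidualGaloisRep ρbar) :=
  ⟨redMap DQ, isLocalHom_redMap DQ, redMap_surjective DQ, redMap_algebraMap DQ,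
    isEquiv_baseChangeAlong_redMap DQ⟩

/-- **Transfer principle**: a property of adic representations which is invariant under
equivalence and stable under base change along surjective local homomorphisms passes from the
universal deformation to `ρbar`. -/
theorem prop_ofResidual (DQ : GaloisRep.DeformationRingData 𝒪 ρbar 𝒟)
    (P : ∀ {A : Type} [CommRing A] [IsLocalRing A], GaloisRepAdic A → Prop)
    (hbc : ∀ {A B : Type} [CommRing A] [IsLocalRing A] [CommRing B] [IsLocalRing B]
      (φ : A →+* B) (hφ : IsLocalHom φ) (ρ : GaloisRepAdic A), Function.Surjective φ →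
        P ρ → P (ρ.baseChangeAlong φ hφ))
    (heq : ∀ {A : Type} [CommRing A] [IsLocalRing A] {ρ₁ ρ₂ : GaloisRepAdic A},
      ρ₁.IsEquiv ρ₂ → P ρ₁ → P ρ₂)
    (h : P DQ.ρ) : P (GaloisRepAdic.ofResidualGaloisRep ρbar) :=
  heq (isEquiv_baseChangeAlong_redMap DQ)
    (hbc (redMap DQ) (isLocalHom_redMap DQ) DQ.ρ (redMap_surjective DQ) h)

end Deformation

section S56

variable {𝒪 : Type} [CommRing 𝒪] [IsDomain 𝒪] [IsDiscreteValuationRing 𝒪]
  [IsAdicComplete (maximalIdeal 𝒪) 𝒪]
variable {ρbar : ResidualGaloisRep (ResidueField 𝒪)} {p : ℕ} {T Smin : Finset ℕ}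

/-- **`ρbar` is of strict-ordinary type** as soon as a deformation ring of that type exists. -/
theorem so_ofResidual
    (DQ : GaloisRep.DeformationRingData 𝒪 ρbar (fun _A _ _ _ ρ =>
      GaloisRep.strictOrdinaryCondition 𝒪 p T ρ ∧
        ∀ q ∈ Smin, q.Prime → q ≠ p → ρ.IsUnipotentOnInertiaAt q)) :
    GaloisRep.strictOrdinaryCondition 𝒪 p T (GaloisRepAdic.ofResidualGaloisRep ρbar) ∧
      ∀ q ∈ Smin, q.Prime → q ≠ p →
        (GaloisRepAdic.ofResidualGaloisRep ρbar).IsUnipotentOnInertiaAt q :=
  so_of_isEquiv 𝒪 (isEquiv_baseChangeAlong_redMap DQ)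
    (so_baseChangeAlong (redMap DQ) (isLocalHom_redMap DQ) DQ.ρ 𝒪 DQ.isOfType)

/-- **`ρbar` is of flat type** as soon as a deformation ring of that type exists. -/
theorem fl_ofResidual
    (DQ : GaloisRep.DeformationRingData 𝒪 ρbar (fun _A _ _ _ ρ =>
      GaloisRep.flatCondition 𝒪 p T ρ ∧
        ∀ q ∈ Smin, q.Prime → q ≠ p → ρ.IsUnipotentOnInertiaAt q)) :
    GaloisRep.flatCondition 𝒪 p T (GaloisRepAdic.ofResidualGaloisRep ρbar) ∧
      ∀ q ∈ Smin, q.Prime → q ≠ p →
        (GaloisRepAdic.ofResidualGaloisRep ρbar).IsUnipotentOnInertiaAt q :=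
  fl_of_isEquiv 𝒪 (isEquiv_baseChangeAlong_redMap DQ)
    (fl_baseChangeAlong (redMap DQ) (isLocalHom_redMap DQ) DQ.ρ 𝒪 (redMap_surjective DQ)
      DQ.isOfType)

end S56

end Fermat.Agent.S56.Tan.Residual
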